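import Mathlib

set_option autoImplicit false

/-!
# Periodic decaying primitives on the upper half plane (helper file for S22)
-/

noncomputable section

open UpperHalfPlane hiding I
open Complex Filter Function
open scoped Topology Manifold Real

namespace Fermat.Agent.S22ES

/-- Holomorphic, `h`-periodic functions on the upper half plane vanishing at `i∞`. -/
structure IsPerCusp (h : ℝ) (g : ℍ → ℂ) : Prop where
  mdiff : MDiff g
  per : Function.Periodic (g ∘ ofComplex) (h : ℂ)
  zero : IsZeroAtImInfty g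

theorem hasDerivAt_qParam (h : ℝ) (z : ℂ) :
    HasDerivAt (Function.Periodic.qParam h)
      (Function.Periodic.qParam h z * (2 * π * I / h)) z := by
  unfold Function.Periodic.qParam
  have h1 : HasDerivAt (fun z : ℂ => 2 * π * I * z / h) (2 * π * I / h) z := by
    have := ((hasDerivAt_id z).const_mul (2 * π * I)).div_const (h : ℂ)
    simpa using this
  exact h1.cexp

theorem qParam_add_period {h : ℝ} (hh : h ≠ 0) (w : ℂ) :
    Function.Periodic.qParam h (w + (h : ℂ)) = Function.Periodic.qParam h w := by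
  unfold Function.Periodic.qParam
  have hhC : (h : ℂ) ≠ 0 := by exact_mod_cast hh
  have : 2 * π * I * (w + h) / h = 2 * π * I * w / h + 2 * π * I := by
    field_simp
  rw [this]
  exact Complex.exp_periodic _

/-- One-step primitive in the class `IsPerCusp`. -/
theorem exists_prim {h : ℝ} (hh : 0 < h) {g : ℍ → ℂ} (hg : IsPerCusp h g) :
    ∃ G : ℍ → ℂ, IsPerCusp h G ∧ ∀ z : ℍ, deriv (G ∘ ofComplex) z = g z := by
  set φ : ℂ → ℂ := cuspFunction h g with hφ
  have hbdd : IsBoundedAtImInfty g := hg.zero.isBoundedAtImInfty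
  have hφd : DifferentiableOn ℂ φ (Metric.ball 0 1) :=
    differentiableOn_cuspFunction_ball hh hg.per hg.mdiff hbdd
  have hφ0 : φ 0 = 0 := by
    rw [hφ, cuspFunction_apply_zero hh (analyticAt_cuspFunction_zero hh hg.per hg.mdiff hbdd)
      hg.per]
    exact hg.zero.valueAtInfty_eq_zero
  have hball : Metric.ball (0 : ℂ) 1 ∈ 𝓝 (0 : ℂ) := Metric.ball_mem_nhds _ one_pos
  have hψd : DifferentiableOn ℂ (dslope φ 0) (Metric.ball 0 1) :=
    (differentiableOn_dslope hball).mpr hφd
  obtain ⟨Ψ, hΨ0, hΨ⟩ := (hψd.isExactOn_ball).with_val_at 0 0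
  -- the primitive
  set c : ℂ := (h : ℂ) / (2 * π * I) with hc
  have hpi : (2 * π * I : ℂ) ≠ 0 := by
    simp [Real.pi_ne_zero]
  have hhC : (h : ℂ) ≠ 0 := by exact_mod_cast hh.ne'
  set G : ℍ → ℂ := fun τ => c * Ψ (Function.Periodic.qParam h τ) with hG
  have hqball : ∀ z : ℂ, 0 < z.im → Function.Periodic.qParam h z ∈ Metric.ball (0 : ℂ) 1 := by
    intro z hz
    rw [mem_ball_zero_iff]
    exact Function.Periodic.norm_qParam_lt_one hh hz
  -- derivative on the upper half plane
  have hderiv : ∀ z : ℂ, ∀ hz : 0 < z.im,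
      HasDerivAt (fun w : ℂ => c * Ψ (Function.Periodic.qParam h w)) (g ⟨z, hz⟩) z := by
    intro z hz
    have hq := hqball z hz
    have hqne : Function.Periodic.qParam h z ≠ 0 := Function.Periodic.qParam_ne_zero z
    have h1 := (hΨ _ hq).comp z (hasDerivAt_qParam h z)
    have h2 := h1.const_mul c
    have hval : c * (dslope φ 0 (Function.Periodic.qParam h z) *
        (Function.Periodic.qParam h z * (2 * π * I / h))) = g ⟨z, hz⟩ := by
      rw [dslope_of_ne _ hqne, slope_def_field, hφ0, sub_zero, sub_zero]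
      have : φ (Function.Periodic.qParam h z) = g ⟨z, hz⟩ := by
        have := eq_cuspFunction (f := g) ⟨z, hz⟩ hh.ne' hg.per
        simpa using this
      rw [this, hc]
      field_simp
    rw [hval] at h2
    exact h2
  have hGcomp : ∀ z : ℂ, 0 < z.im →
      (G ∘ ofComplex) =ᶠ[𝓝 z] fun w : ℂ => c * Ψ (Function.Periodic.qParam h w) := by
    intro z hz
    have hopen : {w : ℂ | 0 < w.im} ∈ 𝓝 z :=
      (isOpen_lt continuous_const Complex.continuous_im).mem_nhds hz
    filter_upwards [hopen] with w hw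
    simp only [Function.comp_apply, hG, ofComplex_apply_of_im_pos hw]
  have hGderiv : ∀ z : ℂ, ∀ hz : 0 < z.im, HasDerivAt (G ∘ ofComplex) (g ⟨z, hz⟩) z := by
    intro z hz
    exact (hderiv z hz).congr_of_eventuallyEq (hGcomp z hz)
  refine ⟨G, ⟨?_, ?_, ?_⟩, ?_⟩
  · rw [UpperHalfPlane.mdifferentiable_iff]
    intro z hz
    exact (hGderiv z hz).differentiableAt.differentiableWithinAt
  · intro w
    by_cases hw : 0 < w.im
    · have hw' : 0 < (w + (h : ℂ)).im := by simpa using hw
      simp only [Function.comp_apply, hG, ofComplex_apply_of_im_pos hw,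
        ofComplex_apply_of_im_pos hw']
      congr 2
      exact qParam_add_period hh.ne' w
    · have hw1 : w.im ≤ 0 := not_lt.mp hw
      have hw' : (w + (h : ℂ)).im ≤ 0 := by simpa using hw1
      simp only [Function.comp_apply]
      rw [ofComplex_apply_eq_of_im_nonpos hw' hw1]
  · -- zero at infinity
    have hΨc : ContinuousAt Ψ 0 := (hΨ 0 (Metric.mem_ball_self one_pos)).continuousAt
    have hq0 : Tendsto (fun τ : ℍ => Function.Periodic.qParam h τ) atImInfty (𝓝 0) :=
      qParam_tendsto_atImInfty hh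
    have h1 : Tendsto (fun τ : ℍ => Ψ (Function.Periodic.qParam h τ)) atImInfty (𝓝 (Ψ 0)) :=
      hΨc.tendsto.comp hq0
    have h2 : Tendsto G atImInfty (𝓝 (c * Ψ 0)) := h1.const_mul c
    rw [hΨ0, mul_zero] at h2
    exact h2
  · intro z
    have := (hGderiv (z : ℂ) z.im_pos).deriv
    simpa using this

theorem isOpen_upperHalfPlaneSet' : IsOpen {w : ℂ | 0 < w.im} :=
  isOpen_lt continuous_const Complex.continuous_im

/-- Iterated primitive in the class `IsPerCusp`. -/
theorem exists_iterPrim {h : ℝ} (hh : 0 < h) (n : ℕ) :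
    ∀ {g : ℍ → ℂ}, IsPerCusp h g →
      ∃ F : ℍ → ℂ, IsPerCusp h F ∧ ∀ z : ℍ, iteratedDeriv n (F ∘ ofComplex) z = g z := by
  induction n with
  | zero =>
    intro g hg
    refine ⟨g, hg, fun z => ?_⟩
    simp [iteratedDeriv_zero]
  | succ n ih =>
    intro g hg
    obtain ⟨G, hG, hGd⟩ := exists_prim hh hg
    obtain ⟨F, hF, hFd⟩ := ih hG
    refine ⟨F, hF, fun z => ?_⟩
    rw [iteratedDeriv_succ]
    have hev : iteratedDeriv n (F ∘ ofComplex) =ᶠ[𝓝 (z : ℂ)] (G ∘ ofComplex) := by
      filter_upwards [isOpen_upperHalfPlaneSet'.mem_nhds z.im_pos] with w hw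
      have := hFd ⟨w, hw⟩
      simp only [Function.comp_apply, ofComplex_apply_of_im_pos hw]
      exact this
    rw [hev.deriv_eq]
    exact hGd z

end Fermat.Agent.S22ES
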