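import Mathlib
import Fermat.Prelude.Thm_Subgroup_IsArithmetic_exists_nat_mem_strictPeriods_conj
import Fermat.Prelude.Thm_CongruenceSubgroup_one_mem_strictPeriods_Gamma0
import Fermat.Agent.S22ES.Prim

set_option autoImplicit false

/-!
# Cusp forms on `Γ₀(N)` and their `SL(2,ℤ)`-translates are periodic and decay at `i∞`
-/

noncomputable section

open UpperHalfPlane hiding I
open Complex Filter Function Matrix.SpecialLinearGroup
open scoped Topology Manifold Real MatrixGroups ModularForm

namespace Fermat.Agent.S22ES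

variable {N : ℕ} {k : ℤ}

theorem isPerCusp_cuspForm [NeZero N] (f : CuspForm (CongruenceSubgroup.Gamma0 N) k) :
    IsPerCusp 1 ⇑f where
  mdiff := CuspFormClass.holo f
  per := by
    have := SlashInvariantFormClass.periodic_comp_ofComplex f
      (CongruenceSubgroup.one_mem_strictPeriods_Gamma0 N)
    simpa using this
  zero := CuspFormClass.zero_at_infty f

theorem exists_period_slash (N : ℕ) [NeZero N] :
    ∃ M : ℕ, 0 < M ∧ ∀ (k : ℤ) (f : CuspForm (CongruenceSubgroup.Gamma0 N) k) (σ : SL(2, ℤ)),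
      IsPerCusp (M : ℝ) (⇑f ∣[k] σ) := by
  obtain ⟨M, hM, hper⟩ := Subgroup.IsArithmetic.exists_nat_mem_strictPeriods_conj
    (CongruenceSubgroup.Gamma0 N : Subgroup (GL (Fin 2) ℝ))
  refine ⟨M, hM, fun k f σ => ⟨?_, ?_, ?_⟩⟩
  · exact (CuspFormClass.holo f).slash k _
  · have h1 := hper σ⁻¹
    have h2 := SlashInvariantFormClass.periodic_comp_ofComplex
      (CuspForm.translate f (mapGL ℝ σ)) (h := (M : ℝ)) (by simpa using h1)
    have h3 : (⇑(CuspForm.translate f (mapGL ℝ σ)) : ℍ → ℂ) = ⇑f ∣[k] σ := rfl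
    rw [h3] at h2
    simpa using h2
  · exact CuspFormClass.zero_at_infty_slash f σ

/-- `Γ₀(N)` is finitely generated (Schreier + `SL(2,ℤ) = ⟨S, T⟩`). -/
theorem fg_Gamma0 (N : ℕ) [NeZero N] : Group.FG (CongruenceSubgroup.Gamma0 N) := by
  have h : Group.FG SL(2, ℤ) :=
    ⟨⟨{ModularGroup.S, ModularGroup.T}, by
      simpa using _root_.SpecialLinearGroup.SL2Z_generators⟩⟩
  infer_instance

/-- A cusp form, regarded as a modular form. -/
def cuspToModular (f : CuspForm (CongruenceSubgroup.Gamma0 N) k) :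
    ModularForm (CongruenceSubgroup.Gamma0 N) k where
  toSlashInvariantForm := f.toSlashInvariantForm
  holo' := f.holo'
  bdd_at_cusps' := fun hc => ModularFormClass.bdd_at_cusps f hc

theorem coe_cuspToModular (f : CuspForm (CongruenceSubgroup.Gamma0 N) k) :
    (⇑(cuspToModular f) : ℍ → ℂ) = ⇑f := rfl

theorem cuspForm_eq_zero_of_odd (hk : Odd k) (f : CuspForm (CongruenceSubgroup.Gamma0 N) k) :
    f = 0 := by
  have h1 : (-1 : GL (Fin 2) ℝ) ∈ (CongruenceSubgroup.Gamma0 N : Subgroup (GL (Fin 2) ℝ)) := by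
    refine ⟨-1, ?_, by ext; simp⟩
    simp [CongruenceSubgroup.Gamma0_mem]
  have := ModularForm.eq_zero_of_neg_one_mem h1 hk (cuspToModular f)
  ext z
  have h2 := congrArg (fun g : ModularForm (CongruenceSubgroup.Gamma0 N) k => g z) this
  simpa [coe_cuspToModular] using h2

theorem cuspForm_eq_zero_of_nonpos [NeZero N] (hk : k ≤ 0) (f : CuspForm (CongruenceSubgroup.Gamma0 N) k) :
    f = 0 := by
  rcases hk.lt_or_eq with hk | rfl
  · have := ModularForm.isZero_of_neg_weight hk (cuspToModular f)
    ext z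
    have h2 := congrArg (fun g : ModularForm (CongruenceSubgroup.Gamma0 N) k => g z) this
    simpa [coe_cuspToModular] using h2
  · obtain ⟨c, hc⟩ := ModularForm.eq_const_of_weight_zero (cuspToModular f)
    rw [coe_cuspToModular] at hc
    have hz : IsZeroAtImInfty (⇑f) := CuspFormClass.zero_at_infty f
    rw [hc] at hz
    have hc0 : c = 0 := by
      have h3 : Tendsto (Function.const ℍ c) atImInfty (𝓝 0) := hz
      have h4 : Tendsto (Function.const ℍ c) atImInfty (𝓝 c) := tendsto_const_nhds
      exact tendsto_nhds_unique h4 h3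
    ext z
    have := congrFun hc z
    simpa [hc0] using this

end Fermat.Agent.S22ES
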