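import Mathlib

/-!
# Bol's identity

For `γ = (a b; c d)` with `a d - b c = 1` and `G` holomorphic,
`D^n [ (c w + d)^(n-1) G(γ w) ] = (c w + d)^(-n-1) (D^n G)(γ w)`.
-/

set_option autoImplicit false

namespace Fermat.Agent.S22ES

open Filter Topology

/-- Iterated derivatives of a holomorphic function on an open set are holomorphic there. -/
theorem differentiableOn_iteratedDeriv {H : ℂ → ℂ} {V : Set ℂ} (hV : IsOpen V)
    (hH : DifferentiableOn ℂ H V) (m : ℕ) : DifferentiableOn ℂ (iteratedDeriv m H) V := by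
  induction m with
  | zero => simpa [iteratedDeriv_zero] using hH
  | succ m ih =>
    rw [iteratedDeriv_succ]
    exact ih.deriv hV

/-- Leibniz rule for multiplication by a linear factor. -/
theorem iteratedDeriv_linear_mul {H : ℂ → ℂ} {V : Set ℂ} (hV : IsOpen V)
    (hH : DifferentiableOn ℂ H V) (c d : ℂ) (m : ℕ) :
    ∀ w ∈ V, iteratedDeriv (m + 1) (fun w => (c * w + d) * H w) w =
      (c * w + d) * iteratedDeriv (m + 1) H w + (m + 1) * c * iteratedDeriv m H w := by
  induction m with
  | zero =>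
    intro w hw
    have hHw : DifferentiableAt ℂ H w := (hH w hw).differentiableAt (hV.mem_nhds hw)
    have hL : HasDerivAt (fun w : ℂ => c * w + d) c w := by
      simpa using ((hasDerivAt_id w).const_mul c).add_const d
    have := (hL.mul hHw.hasDerivAt).deriv
    simp only [iteratedDeriv_one, iteratedDeriv_zero, zero_add, Nat.cast_zero]
    rw [show (fun w => (c * w + d) * H w) = (fun w : ℂ => c * w + d) * H from rfl, this]
    ring
  | succ m ih =>
    intro w hw
    have hm1 : DifferentiableOn ℂ (iteratedDeriv (m + 1) H) V :=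
      differentiableOn_iteratedDeriv hV hH (m + 1)
    have hm0 : DifferentiableOn ℂ (iteratedDeriv m H) V :=
      differentiableOn_iteratedDeriv hV hH m
    have h1 : DifferentiableAt ℂ (iteratedDeriv (m + 1) H) w :=
      (hm1 w hw).differentiableAt (hV.mem_nhds hw)
    have h0 : DifferentiableAt ℂ (iteratedDeriv m H) w :=
      (hm0 w hw).differentiableAt (hV.mem_nhds hw)
    have hev : iteratedDeriv (m + 1) (fun w => (c * w + d) * H w) =ᶠ[𝓝 w]
        fun w => (c * w + d) * iteratedDeriv (m + 1) H w + (m + 1) * c * iteratedDeriv m H w := by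
      filter_upwards [hV.mem_nhds hw] with x hx using ih x hx
    rw [iteratedDeriv_succ, hev.deriv_eq]
    have hL : HasDerivAt (fun w : ℂ => c * w + d) c w := by
      simpa using ((hasDerivAt_id w).const_mul c).add_const d
    have hd1 : HasDerivAt (iteratedDeriv (m + 1) H) (iteratedDeriv (m + 2) H w) w := by
      have := h1.hasDerivAt
      rwa [← iteratedDeriv_succ] at this
    have hd0 : HasDerivAt (iteratedDeriv m H) (iteratedDeriv (m + 1) H w) w := by
      have := h0.hasDerivAt
      rwa [← iteratedDeriv_succ] at this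
    have := ((hL.mul hd1).add (hd0.const_mul (((m : ℂ) + 1) * c))).deriv
    rw [show (fun w => (c * w + d) * iteratedDeriv (m + 1) H w +
          ((m : ℂ) + 1) * c * iteratedDeriv m H w) =
        ((fun w : ℂ => c * w + d) * iteratedDeriv (m + 1) H +
          fun w => ((m : ℂ) + 1) * c * iteratedDeriv m H w) from rfl, this]
    push_cast
    ring


/-- The open set on which the Moebius transformation is defined and lands in `W`. -/
theorem isOpen_moebius_preimage (a b c d : ℂ) {W : Set ℂ} (hW : IsOpen W) :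
    IsOpen {w : ℂ | c * w + d ≠ 0 ∧ (a * w + b) / (c * w + d) ∈ W} := by
  have h1 : IsOpen {w : ℂ | c * w + d ≠ 0} :=
    isOpen_ne_fun (by fun_prop) continuous_const
  have hcont : ContinuousOn (fun w : ℂ => (a * w + b) / (c * w + d)) {w : ℂ | c * w + d ≠ 0} := by
    apply ContinuousOn.div
    · fun_prop
    · fun_prop
    · intro w hw; exact hw
  exact hcont.isOpen_inter_preimage h1 hW

theorem hasDerivAt_moebius (a b c d Δ : ℂ) (hdet : a * d - b * c = Δ) (w : ℂ)
    (hw : c * w + d ≠ 0) :
    HasDerivAt (fun w : ℂ => (a * w + b) / (c * w + d)) (Δ * (c * w + d) ^ (-2 : ℤ)) w := by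
  have h1 : HasDerivAt (fun w : ℂ => a * w + b) a w := by
    simpa using ((hasDerivAt_id w).const_mul a).add_const b
  have h2 : HasDerivAt (fun w : ℂ => c * w + d) c w := by
    simpa using ((hasDerivAt_id w).const_mul c).add_const d
  refine (h1.div h2 hw).congr_deriv ?_
  rw [zpow_neg, zpow_ofNat]
  field_simp
  linear_combination hdet

/-- **Bol's identity**, on the open set where everything is defined (any determinant `Δ`). -/
theorem bol_identity_aux (a b c d Δ : ℂ) (hdet : a * d - b * c = Δ) (G : ℂ → ℂ) (W : Set ℂ)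
    (hW : IsOpen W) (hG : DifferentiableOn ℂ G W) (n : ℕ) :
    ∀ w ∈ {w : ℂ | c * w + d ≠ 0 ∧ (a * w + b) / (c * w + d) ∈ W},
      iteratedDeriv n (fun w => (c * w + d) ^ ((n : ℤ) - 1) * G ((a * w + b) / (c * w + d))) w
        = Δ ^ n * ((c * w + d) ^ (-(n : ℤ) - 1) *
            iteratedDeriv n G ((a * w + b) / (c * w + d))) := by
  set V : Set ℂ := {w : ℂ | c * w + d ≠ 0 ∧ (a * w + b) / (c * w + d) ∈ W} with hVdef
  have hV : IsOpen V := isOpen_moebius_preimage a b c d hW
  -- differentiability of `w ↦ (c w + d)^j * H (γ w)` on `V` for `H` holomorphic on `W`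
  have hdiff : ∀ (j : ℤ) (H : ℂ → ℂ), DifferentiableOn ℂ H W →
      DifferentiableOn ℂ (fun w => (c * w + d) ^ j * H ((a * w + b) / (c * w + d))) V := by
    intro j H hH w hw
    have hγ := hasDerivAt_moebius a b c d Δ hdet w hw.1
    have hHγ : DifferentiableAt ℂ H ((a * w + b) / (c * w + d)) :=
      (hH _ hw.2).differentiableAt (hW.mem_nhds hw.2)
    have h2 : HasDerivAt (fun w : ℂ => c * w + d) c w := by
      simpa using ((hasDerivAt_id w).const_mul c).add_const d
    have hz : DifferentiableAt ℂ (fun w : ℂ => (c * w + d) ^ j) w :=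
      (h2.differentiableAt).zpow (Or.inl hw.1)
    have hc : DifferentiableAt ℂ (fun w : ℂ => H ((a * w + b) / (c * w + d))) w :=
      (hHγ.hasDerivAt.comp w hγ).differentiableAt
    exact (hz.mul hc).differentiableWithinAt
  induction n with
  | zero =>
    intro w hw
    simp [iteratedDeriv_zero]
  | succ n ih =>
    intro w hw
    have hu : c * w + d ≠ 0 := hw.1
    -- Φ_{n+1} = L * Φ_n on V
    have hev : (fun w => (c * w + d) ^ (((n + 1 : ℕ) : ℤ) - 1) * G ((a * w + b) / (c * w + d)))
        =ᶠ[𝓝 w] fun w => (c * w + d) *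
          ((c * w + d) ^ ((n : ℤ) - 1) * G ((a * w + b) / (c * w + d))) := by
      filter_upwards [hV.mem_nhds hw] with x hx
      have hx0 : c * x + d ≠ 0 := hx.1
      rw [← mul_assoc, ← zpow_one_add₀ hx0]
      congr 2
      push_cast
      ring
    rw [hev.iteratedDeriv_eq (n + 1)]
    have hΦ : DifferentiableOn ℂ
        (fun w => (c * w + d) ^ ((n : ℤ) - 1) * G ((a * w + b) / (c * w + d))) V :=
      hdiff _ G hG
    rw [iteratedDeriv_linear_mul hV hΦ c d n w hw, ih w hw]
    -- derivative of K_n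
    have hevK : iteratedDeriv n
          (fun w => (c * w + d) ^ ((n : ℤ) - 1) * G ((a * w + b) / (c * w + d)))
        =ᶠ[𝓝 w] fun w => Δ ^ n * ((c * w + d) ^ (-(n : ℤ) - 1) *
          iteratedDeriv n G ((a * w + b) / (c * w + d))) := by
      filter_upwards [hV.mem_nhds hw] with x hx using ih x hx
    rw [iteratedDeriv_succ, hevK.deriv_eq]
    have hγ := hasDerivAt_moebius a b c d Δ hdet w hu
    have hGn : DifferentiableOn ℂ (iteratedDeriv n G) W := differentiableOn_iteratedDeriv hW hG n
    have hGnγ : HasDerivAt (iteratedDeriv n G)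
        (iteratedDeriv (n + 1) G ((a * w + b) / (c * w + d))) ((a * w + b) / (c * w + d)) := by
      have := ((hGn _ hw.2).differentiableAt (hW.mem_nhds hw.2)).hasDerivAt
      rwa [← iteratedDeriv_succ] at this
    have h2 : HasDerivAt (fun w : ℂ => c * w + d) c w := by
      simpa using ((hasDerivAt_id w).const_mul c).add_const d
    have hz : HasDerivAt (fun w : ℂ => (c * w + d) ^ (-(n : ℤ) - 1))
        (((-(n : ℤ) - 1 : ℤ) : ℂ) * (c * w + d) ^ (-(n : ℤ) - 1 - 1) * c) w := by
      have := (hasDerivAt_zpow (-(n : ℤ) - 1) (c * w + d) (Or.inl hu)).comp w h2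
      exact this
    have hc := hGnγ.comp w hγ
    have hK := ((hz.mul hc).const_mul (Δ ^ n)).deriv
    rw [show (fun w => Δ ^ n * ((c * w + d) ^ (-(n : ℤ) - 1) *
          iteratedDeriv n G ((a * w + b) / (c * w + d)))) =
        (fun w => Δ ^ n * (((fun w : ℂ => (c * w + d) ^ (-(n : ℤ) - 1)) *
          (iteratedDeriv n G ∘ fun w : ℂ => (a * w + b) / (c * w + d))) w)) from rfl, hK]
    simp only [Function.comp_apply]
    have e1 : (c * w + d) ^ (-(n : ℤ) - 1 - 1) = (c * w + d) ^ (-(n : ℤ) - 1) * (c * w + d)⁻¹ := by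
      rw [zpow_sub_one₀ hu]
    have e2 : (c * w + d) ^ (-((n + 1 : ℕ) : ℤ) - 1)
        = (c * w + d) ^ (-(n : ℤ) - 1) * (c * w + d)⁻¹ := by
      rw [← zpow_sub_one₀ hu]
      congr 1
      push_cast
      ring
    have e3 : (c * w + d) ^ (-2 : ℤ) = (c * w + d)⁻¹ * (c * w + d)⁻¹ := by
      rw [zpow_neg, zpow_ofNat, sq, mul_inv]
    rw [e1, e2, e3]
    push_cast
    field_simp
    ring

/-- **Bol's identity** (determinant one). -/
theorem bol_identity (n : ℕ) (a b c d : ℂ) (hdet : a * d - b * c = 1) (G : ℂ → ℂ) (W : Set ℂ)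
    (hW : IsOpen W) (hG : DifferentiableOn ℂ G W) (z : ℂ) (hz : c * z + d ≠ 0)
    (hgz : (a * z + b) / (c * z + d) ∈ W) :
    iteratedDeriv n (fun w => (c * w + d) ^ ((n : ℤ) - 1) * G ((a * w + b) / (c * w + d))) z
      = (c * z + d) ^ (-(n : ℤ) - 1) * iteratedDeriv n G ((a * z + b) / (c * z + d)) := by
  have := bol_identity_aux a b c d 1 hdet G W hW hG n z ⟨hz, hgz⟩
  simpa using this

end Fermat.Agent.S22ES
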