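import Mathlib
import Fermat.Agent.S22ES.Bol

/-!
# Bol's identity on the upper half plane, for Mathlib's slash action

For `g ∈ GL₂(ℝ)` of positive determinant and `F` holomorphic on `ℍ`:
`|det g|^(w+1) * D^(w+1) (F ∣[-w] g) = (D^(w+1) F) ∣[w+2] g`.
-/

set_option autoImplicit false

noncomputable section

open UpperHalfPlane hiding I
open Complex Filter Function
open scoped Topology Manifold Real MatrixGroups ModularForm

namespace Fermat.Agent.S22ES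

theorem bolH_isOpen_imPos : IsOpen {w : ℂ | 0 < w.im} :=
  isOpen_lt continuous_const Complex.continuous_im

/-- Holomorphy of `F ∘ ofComplex` on the upper half plane. -/
theorem bolH_differentiableOn {F : ℍ → ℂ} (hF : MDiff F) :
    DifferentiableOn ℂ (F ∘ ofComplex) {z : ℂ | 0 < z.im} :=
  UpperHalfPlane.mdifferentiable_iff.mp hF

/-- **Bol's identity** for the slash action of `GL₂(ℝ)⁺`. -/
theorem iteratedDeriv_slash_GL (w : ℕ) (F : ℍ → ℂ) (hF : MDiff F) (g : GL (Fin 2) ℝ)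
    (hg : 0 < g.det.val) (z : ℍ) :
    ((|g.det.val| : ℝ) : ℂ) ^ (w + 1) *
        iteratedDeriv (w + 1) ((F ∣[-(w : ℤ)] g) ∘ ofComplex) z
      = ((fun τ : ℍ => iteratedDeriv (w + 1) (F ∘ ofComplex) τ) ∣[(w : ℤ) + 2] g) z := by
  set a : ℂ := (((g : Matrix (Fin 2) (Fin 2) ℝ) 0 0 : ℝ) : ℂ) with ha
  set b : ℂ := (((g : Matrix (Fin 2) (Fin 2) ℝ) 0 1 : ℝ) : ℂ) with hb
  set c : ℂ := (((g : Matrix (Fin 2) (Fin 2) ℝ) 1 0 : ℝ) : ℂ) with hc
  set d : ℂ := (((g : Matrix (Fin 2) (Fin 2) ℝ) 1 1 : ℝ) : ℂ) with hd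
  set Δ : ℂ := ((g.det.val : ℝ) : ℂ) with hΔ
  have hdet : a * d - b * c = Δ := by
    rw [hΔ, Matrix.GeneralLinearGroup.val_det_apply, Matrix.det_fin_two]
    push_cast
    ring
  have habs : |g.det.val| = g.det.val := abs_of_pos hg
  have hΔ0 : Δ ≠ 0 := by
    rw [hΔ]
    exact_mod_cast hg.ne'
  set G : ℂ → ℂ := F ∘ ofComplex with hGdef
  have hG : DifferentiableOn ℂ G {z : ℂ | 0 < z.im} := bolH_differentiableOn hF
  have hW : IsOpen {z : ℂ | 0 < z.im} := bolH_isOpen_imPos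
  -- pointwise description on the upper half plane
  have hden : ∀ τ : ℍ, denom g τ = c * τ + d := fun τ => rfl
  have hnum : ∀ τ : ℍ, num g τ = a * τ + b := fun τ => rfl
  have hsm : ∀ τ : ℍ, ((g • τ : ℍ) : ℂ) = (a * τ + b) / (c * τ + d) := fun τ => by
    rw [coe_smul_of_det_pos hg, hden, hnum]
  have hσ : UpperHalfPlane.σ g = .refl ℝ ℂ := by
    rw [UpperHalfPlane.σ, if_pos hg]
  have hev : ((F ∣[-(w : ℤ)] g) ∘ ofComplex) =ᶠ[𝓝 (z : ℂ)]
      fun x => Δ ^ (-(w : ℤ) - 1) *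
        ((c * x + d) ^ (((w + 1 : ℕ) : ℤ) - 1) * G ((a * x + b) / (c * x + d))) := by
    filter_upwards [hW.mem_nhds z.im_pos] with x hx
    have hx' : ofComplex x = ⟨x, hx⟩ := ofComplex_apply_of_im_pos hx
    simp only [Function.comp_apply, hx', ModularForm.slash_apply, hσ,
      ContinuousAlgEquiv.refl_apply, hGdef]
    have h1 : ((g • (⟨x, hx⟩ : ℍ) : ℍ) : ℂ) = (a * x + b) / (c * x + d) := hsm ⟨x, hx⟩
    have h2 : ofComplex ((a * x + b) / (c * x + d)) = g • (⟨x, hx⟩ : ℍ) := by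
      rw [← h1]
      exact ofComplex_apply _
    rw [h2, hden ⟨x, hx⟩, habs]
    have e1 : (-(-(w : ℤ))) = (((w + 1 : ℕ) : ℤ) - 1) := by push_cast; ring
    have e2 : (-(w : ℤ) - 1) = (-(w : ℤ)) - 1 := rfl
    rw [e1]
    change F (g • ⟨x, hx⟩) * Δ ^ (-(w : ℤ) - 1) * (c * x + d) ^ (((w + 1 : ℕ) : ℤ) - 1) = _
    ring
  rw [hev.iteratedDeriv_eq (w + 1), iteratedDeriv_const_mul_field]
  have hzden : c * (z : ℂ) + d ≠ 0 := by
    rw [← hden z]
    exact denom_ne_zero g z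
  have hzmem : (a * (z : ℂ) + b) / (c * z + d) ∈ {z : ℂ | 0 < z.im} := by
    rw [← hsm z]
    exact (g • z).im_pos
  rw [bol_identity_aux a b c d Δ hdet G {z : ℂ | 0 < z.im} hW hG (w + 1) z ⟨hzden, hzmem⟩]
  simp only [ModularForm.slash_apply, hσ, ContinuousAlgEquiv.refl_apply, habs, hden z, hsm z]
  have e3 : (-((w + 1 : ℕ) : ℤ) - 1) = -((w : ℤ) + 2) := by push_cast; ring
  have e4 : ((w : ℤ) + 2 - 1) = ((w + 1 : ℕ) : ℤ) := by push_cast; ring
  have e5 : (-(w : ℤ) - 1) = -((w + 1 : ℕ) : ℤ) := by push_cast; ring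
  rw [e3, e4, e5, zpow_neg, zpow_natCast]
  change Δ ^ (w + 1) * ((Δ ^ (w + 1))⁻¹ * (Δ ^ (w + 1) * _)) = _ * Δ ^ ((w + 1 : ℕ) : ℤ) * _
  rw [zpow_natCast]
  have hΔp : Δ ^ (w + 1) ≠ 0 := pow_ne_zero _ hΔ0
  field_simp

/-- Bol's identity for `SL(2, ℤ)`. -/
theorem iteratedDeriv_slash_SL (w : ℕ) (F : ℍ → ℂ) (hF : MDiff F) (γ : SL(2, ℤ)) (z : ℍ) :
    iteratedDeriv (w + 1) ((F ∣[-(w : ℤ)] γ) ∘ ofComplex) z
      = ((fun τ : ℍ => iteratedDeriv (w + 1) (F ∘ ofComplex) τ) ∣[(w : ℤ) + 2] γ) z := by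
  have hdet : (Matrix.SpecialLinearGroup.mapGL ℝ γ).det.val = 1 := by
    simp
  have h := iteratedDeriv_slash_GL w F hF (Matrix.SpecialLinearGroup.mapGL ℝ γ)
    (by rw [hdet]; exact one_pos) z
  rw [hdet] at h
  simp only [abs_one, Complex.ofReal_one, one_pow, one_mul] at h
  exact h

/-- Bol's identity for upper triangular matrices with positive diagonal. -/
theorem iteratedDeriv_slash_upper (w : ℕ) (F : ℍ → ℂ) (hF : MDiff F) (g : GL (Fin 2) ℝ)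
    (a b d : ℝ) (ha : 0 < a) (hd : 0 < d)
    (hg : (g : Matrix (Fin 2) (Fin 2) ℝ) = !![a, b; 0, d]) (z : ℍ) :
    ((a * d : ℝ) : ℂ) ^ (w + 1) * iteratedDeriv (w + 1) ((F ∣[-(w : ℤ)] g) ∘ ofComplex) z
      = ((fun τ : ℍ => iteratedDeriv (w + 1) (F ∘ ofComplex) τ) ∣[(w : ℤ) + 2] g) z := by
  have hdet : g.det.val = a * d := by
    rw [Matrix.GeneralLinearGroup.val_det_apply, hg, Matrix.det_fin_two_of]
    ring
  have hpos : 0 < g.det.val := by
    rw [hdet]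
    exact mul_pos ha hd
  have h := iteratedDeriv_slash_GL w F hF g hpos z
  rw [abs_of_pos hpos, hdet] at h
  exact h

end Fermat.Agent.S22ES
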