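import Mathlib
import Fermat.Prelude.Def_ModularForm_HeckeOperator

/-!
# Core definitions for the Eichler-integral ("period lattice") proof of S22

* `dHn n F`      : `n`-th complex derivative of a function on the upper half plane;
* `eSlash w g F` : weight `-w` action without determinant factor,
                   `(F ‖ g) τ = denom g τ ^ w * F (g • τ)`;
* (polynomial functions `polyU w U` live in `S22ES/PolyAction.lean`);
* `heckeUfun`, `heckeTfun` : Hecke operators on Eichler integrals;
* `IsIntMat g`   : `g` has integer entries.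
-/

set_option autoImplicit false

namespace Fermat.Agent.S22ES

open UpperHalfPlane
open scoped MatrixGroups ModularForm Manifold

/-- Iterated complex derivative of a function on the upper half plane. -/
noncomputable def dHn (n : ℕ) (F : ℍ → ℂ) : ℍ → ℂ :=
  fun τ => iteratedDeriv n (F ∘ ofComplex) (τ : ℂ)

/-- Eichler slash (weight `-w`, no determinant factor):
`(F ‖ g) τ = denom g τ ^ w * F (g • τ)`. -/
noncomputable def eSlash (w : ℕ) (g : GL (Fin 2) ℝ) (F : ℍ → ℂ) : ℍ → ℂ :=
  fun τ => denom g τ ^ w * F (g • τ)

/-- `g` has integer entries. -/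
def IsIntMat (g : GL (Fin 2) ℝ) : Prop :=
  ∀ i j, ∃ n : ℤ, (g : Matrix (Fin 2) (Fin 2) ℝ) i j = n

/-- The operator `U_p` on Eichler integrals of weight `-w`. -/
noncomputable def heckeUfun (w p : ℕ) (F : ℍ → ℂ) : ℍ → ℂ :=
  ∑ j ∈ Finset.range p, eSlash w (ModularForm.heckeMatrix p j) F

/-- The operator `T_p` on Eichler integrals of weight `-w`. -/
noncomputable def heckeTfun (w p : ℕ) (F : ℍ → ℂ) : ℍ → ℂ :=
  heckeUfun w p F + eSlash w (ModularForm.heckeDiagMatrix p) F

end Fermat.Agent.S22ES
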