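/-
S22ES helper library (helper7): Hecke coset bookkeeping.  For an ARBITRARY function `F` on the
upper half plane and an arbitrary weight `k`, the "period" `(T F)∣γ - T F` of a Hecke transform is
a finite sum of slashes (by integral upper triangular matrices of determinant `p`) of periods
`F∣γ' - F` with `γ' ∈ Γ₀(N)`.
-/
import Mathlib
import Fermat.Prelude.Def_ModularForm_HeckeOperator
import Fermat.Prelude.Sol.S_ModularForm_heckeT_slash_eq_self_of_mem_Gamma0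

set_option autoImplicit false

namespace Fermat.Agent.S22ES

open UpperHalfPlane hiding I
open Matrix.SpecialLinearGroup
open scoped MatrixGroups ModularForm
open P2MW.S_ModularForm_heckeT_slash_eq_self_of_mem_Gamma0.ModularForm.HeckeSlashInvariance

/-- The upper-left entry of `heckeRep p x`. -/
def heckeRepA (p : ℕ) (x : OnePoint (ZMod p)) : ℤ := x.elim (p : ℤ) (fun _ => 1)

/-- The upper-right entry of `heckeRep p x`. -/
def heckeRepB (p : ℕ) (x : OnePoint (ZMod p)) : ℤ := x.elim 0 (fun j => (j.val : ℤ))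

/-- The lower-right entry of `heckeRep p x`. -/
def heckeRepD (p : ℕ) (x : OnePoint (ZMod p)) : ℤ := x.elim 1 (fun _ => (p : ℤ))

lemma heckeRep_entries {p : ℕ} (hp : p ≠ 0) (x : OnePoint (ZMod p)) :
    0 < heckeRepA p x * heckeRepD p x ∧
      ((heckeRep p x : GL (Fin 2) ℝ) : Matrix (Fin 2) (Fin 2) ℝ) =
        !![(heckeRepA p x : ℝ), (heckeRepB p x : ℝ); ((0 : ℤ) : ℝ), (heckeRepD p x : ℝ)] ∧
      heckeRepA p x * heckeRepD p x = p := by
  have hp' : (0 : ℤ) < p := by exact_mod_cast Nat.pos_of_ne_zero hp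
  induction x using OnePoint.rec with
  | infty =>
    refine ⟨by simpa [heckeRepA, heckeRepD] using hp', ?_, by simp [heckeRepA, heckeRepD]⟩
    rw [heckeRep_infty, ModularForm.val_heckeDiagMatrix hp]
    simp [heckeRepA, heckeRepB, heckeRepD]
  | coe j =>
    refine ⟨by simpa [heckeRepA, heckeRepD] using hp', ?_, by simp [heckeRepA, heckeRepD]⟩
    rw [heckeRep_coe, ModularForm.val_heckeMatrix hp]
    simp [heckeRepA, heckeRepB, heckeRepD]

/-- Period of `T_p F` in terms of periods of `F` (`p ∤ N` prime); the coset data is uniform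
in the weight `k` and in `F`. -/
theorem heckeT_period {N : ℕ} {p : ℕ} (hp : p.Prime) (hpN : ¬ p ∣ N)
    (γ : SL(2, ℤ)) (hγ : γ ∈ CongruenceSubgroup.Gamma0 N) :
    ∃ (ι : Type) (_ : Fintype ι) (γ' : ι → SL(2, ℤ)) (a b d : ι → ℤ) (α : ι → GL (Fin 2) ℝ),
      (∀ i, γ' i ∈ CongruenceSubgroup.Gamma0 N) ∧
      (∀ i, 0 < a i * d i ∧ ((α i : GL (Fin 2) ℝ) : Matrix (Fin 2) (Fin 2) ℝ) =
          !![(a i : ℝ), (b i : ℝ); ((0 : ℤ) : ℝ), (d i : ℝ)] ∧ a i * d i = p) ∧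
      ∀ (k : ℤ) (F : ℍ → ℂ), (ModularForm.heckeT k p F) ∣[k] γ - ModularForm.heckeT k p F =
        ∑ i, (F ∣[k] (γ' i) - F) ∣[k] (α i) := by
  have : Fact p.Prime := ⟨hp⟩
  have hp0 : p ≠ 0 := hp.ne_zero
  have hcN : (N : ℤ) ∣ γ 1 0 :=
    (ZMod.intCast_zmod_eq_zero_iff_dvd _ _).mp (CongruenceSubgroup.Gamma0_mem.mp hγ)
  have hex := fun x : OnePoint (ZMod p) => heckeRep_mul hpN γ hcN x
  choose γ' hγ'N hmul using hex
  refine ⟨OnePoint (ZMod p), inferInstance, γ',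
    fun x => heckeRepA p (redMatrix p γ • x), fun x => heckeRepB p (redMatrix p γ • x),
    fun x => heckeRepD p (redMatrix p γ • x), fun x => heckeRep p (redMatrix p γ • x),
    fun x => CongruenceSubgroup.Gamma0_mem.mpr
      ((ZMod.intCast_zmod_eq_zero_iff_dvd _ _).mpr (hγ'N x)),
    fun x => heckeRep_entries hp0 _, fun k F => ?_⟩
  have h1 : (ModularForm.heckeT k p F) ∣[k] γ =
      ∑ x : OnePoint (ZMod p), (F ∣[k] (γ' x)) ∣[k] heckeRep p (redMatrix p γ • x) := by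
    rw [heckeT_eq_sum_onePoint k F, ModularForm.SL_slash, SlashAction.sum_slash]
    refine Finset.sum_congr rfl fun x _ => ?_
    rw [← SlashAction.slash_mul]
    rw [ModularForm.SL_slash, ← SlashAction.slash_mul]
    exact congrArg (fun g => F ∣[k] g) (hmul x)
  have h2 : ModularForm.heckeT k p F =
      ∑ x : OnePoint (ZMod p), F ∣[k] heckeRep p (redMatrix p γ • x) := by
    rw [heckeT_eq_sum_onePoint k F]
    exact (Equiv.sum_comp (MulAction.toPerm (redMatrix p γ)) (fun x => F ∣[k] heckeRep p x)).symm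
  rw [h1]
  nth_rewrite 1 [h2]
  rw [← Finset.sum_sub_distrib]
  refine Finset.sum_congr rfl fun x _ => ?_
  rw [sub_eq_add_neg, sub_eq_add_neg, SlashAction.add_slash, SlashAction.neg_slash]

/-- Fixed-weight version of `heckeT_period`. -/
theorem heckeT_period_unif {N : ℕ} (k : ℤ) {p : ℕ} (hp : p.Prime) (hpN : ¬ p ∣ N)
    (γ : SL(2, ℤ)) (hγ : γ ∈ CongruenceSubgroup.Gamma0 N) :
    ∃ (ι : Type) (_ : Fintype ι) (γ' : ι → SL(2, ℤ)) (a b d : ι → ℤ) (α : ι → GL (Fin 2) ℝ),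
      (∀ i, γ' i ∈ CongruenceSubgroup.Gamma0 N) ∧
      (∀ i, 0 < a i * d i ∧ ((α i : GL (Fin 2) ℝ) : Matrix (Fin 2) (Fin 2) ℝ) =
          !![(a i : ℝ), (b i : ℝ); ((0 : ℤ) : ℝ), (d i : ℝ)] ∧ a i * d i = p) ∧
      ∀ F : ℍ → ℂ, (ModularForm.heckeT k p F) ∣[k] γ - ModularForm.heckeT k p F =
        ∑ i, (F ∣[k] (γ' i) - F) ∣[k] (α i) := by
  obtain ⟨ι, hι, γ', a, b, d, α, h1, h2, h3⟩ := heckeT_period hp hpN γ hγ
  exact ⟨ι, hι, γ', a, b, d, α, h1, h2, h3 k⟩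

/-- Period of `U_p F` in terms of periods of `F` (`p ∣ N`); the coset data is uniform in `F`. -/
theorem heckeU_period {N : ℕ} {p : ℕ} (hp0 : p ≠ 0) (hpN : p ∣ N)
    (γ : SL(2, ℤ)) (hγ : γ ∈ CongruenceSubgroup.Gamma0 N) :
    ∃ (ι : Type) (_ : Fintype ι) (γ' : ι → SL(2, ℤ)) (a b d : ι → ℤ) (α : ι → GL (Fin 2) ℝ),
      (∀ i, γ' i ∈ CongruenceSubgroup.Gamma0 N) ∧
      (∀ i, 0 < a i * d i ∧ ((α i : GL (Fin 2) ℝ) : Matrix (Fin 2) (Fin 2) ℝ) =
          !![(a i : ℝ), (b i : ℝ); ((0 : ℤ) : ℝ), (d i : ℝ)] ∧ a i * d i = p) ∧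
      ∀ (k : ℤ) (F : ℍ → ℂ), (ModularForm.heckeU k p F) ∣[k] γ - ModularForm.heckeU k p F =
        ∑ i, (F ∣[k] (γ' i) - F) ∣[k] (α i) := by
  have : NeZero p := ⟨hp0⟩
  have hp' : (0 : ℤ) < p := by exact_mod_cast Nat.pos_of_ne_zero hp0
  have hγ0 : ((γ 1 0 : ℤ) : ZMod N) = 0 := CongruenceSubgroup.Gamma0_mem.mp hγ
  have hcN : (N : ℤ) ∣ γ 1 0 := (ZMod.intCast_zmod_eq_zero_iff_dvd _ _).mp hγ0
  have hc : (p : ℤ) ∣ γ 1 0 := (Int.natCast_dvd_natCast.mpr hpN).trans hcN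
  have hc0 : ((γ 1 0 : ℤ) : ZMod p) = 0 := (ZMod.intCast_zmod_eq_zero_iff_dvd _ _).mpr hc
  have hex := fun x : ZMod p => heckeMatrix_mul_of_dvd γ hc x
  choose γ' hγ' hmul using hex
  refine ⟨ZMod p, inferInstance, γ', fun _ => 1, fun x => ((affinePerm γ hc0 x).val : ℤ),
    fun _ => (p : ℤ), fun x => ModularForm.heckeMatrix p (affinePerm γ hc0 x).val,
    fun x => ?_, fun x => ⟨by simpa using hp', ?_, by simp⟩, fun k F => ?_⟩
  · rw [CongruenceSubgroup.Gamma0_mem, hγ' x]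
    push_cast
    rw [hγ0, mul_zero]
  · rw [ModularForm.val_heckeMatrix hp0]
    simp
  have h1 : (ModularForm.heckeU k p F) ∣[k] γ =
      ∑ x : ZMod p, (F ∣[k] (γ' x)) ∣[k] ModularForm.heckeMatrix p (affinePerm γ hc0 x).val := by
    rw [heckeU_eq_sum_zmod k F, ModularForm.SL_slash, SlashAction.sum_slash]
    refine Finset.sum_congr rfl fun x _ => ?_
    rw [← SlashAction.slash_mul]
    rw [ModularForm.SL_slash, ← SlashAction.slash_mul]
    exact congrArg (fun g => F ∣[k] g) (hmul x)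
  have h2 : ModularForm.heckeU k p F =
      ∑ x : ZMod p, F ∣[k] ModularForm.heckeMatrix p (affinePerm γ hc0 x).val := by
    rw [heckeU_eq_sum_zmod k F]
    exact (Equiv.sum_comp (affinePerm γ hc0)
      (fun x => F ∣[k] ModularForm.heckeMatrix p x.val)).symm
  rw [h1]
  nth_rewrite 1 [h2]
  rw [← Finset.sum_sub_distrib]
  refine Finset.sum_congr rfl fun x _ => ?_
  rw [sub_eq_add_neg, sub_eq_add_neg, SlashAction.add_slash, SlashAction.neg_slash]

/-- Fixed-weight version of `heckeU_period`. -/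
theorem heckeU_period_unif {N : ℕ} (k : ℤ) {p : ℕ} (hp0 : p ≠ 0) (hpN : p ∣ N)
    (γ : SL(2, ℤ)) (hγ : γ ∈ CongruenceSubgroup.Gamma0 N) :
    ∃ (ι : Type) (_ : Fintype ι) (γ' : ι → SL(2, ℤ)) (a b d : ι → ℤ) (α : ι → GL (Fin 2) ℝ),
      (∀ i, γ' i ∈ CongruenceSubgroup.Gamma0 N) ∧
      (∀ i, 0 < a i * d i ∧ ((α i : GL (Fin 2) ℝ) : Matrix (Fin 2) (Fin 2) ℝ) =
          !![(a i : ℝ), (b i : ℝ); ((0 : ℤ) : ℝ), (d i : ℝ)] ∧ a i * d i = p) ∧
      ∀ F : ℍ → ℂ, (ModularForm.heckeU k p F) ∣[k] γ - ModularForm.heckeU k p F =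
        ∑ i, (F ∣[k] (γ' i) - F) ∣[k] (α i) := by
  obtain ⟨ι, hι, γ', a, b, d, α, h1, h2, h3⟩ := heckeU_period hp0 hpN γ hγ
  exact ⟨ι, hι, γ', a, b, d, α, h1, h2, h3 k⟩

end Fermat.Agent.S22ES
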