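/-
S22ES helper library (helper7), package (PA): the weight `-w` action of integral 2x2 matrices on
polynomials of degree ≤ w, as a linear map on `ℂ[X]`, its integrality on coefficient functionals
(`InLat`) and its comparison with Mathlib's slash action on the upper half plane.
-/
import Mathlib

set_option autoImplicit false

namespace Fermat.Agent.S22ES

open Polynomial
open UpperHalfPlane hiding I
open scoped MatrixGroups ModularForm

/-- The integer polynomial `(aX+b)^j (cX+d)^(w-j)`. -/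
noncomputable def actMonomial (w : ℕ) (a b c d : ℤ) (j : ℕ) : ℤ[X] :=
  (C a * X + C b) ^ j * (C c * X + C d) ^ (w - j)

/-- The weight `-w` action of the integral matrix `!![a, b; c, d]` on polynomials (only the
coefficients of degree `≤ w` are used): `q ↦ (cX+d)^w q((aX+b)/(cX+d))`. -/
noncomputable def polyAct (w : ℕ) (a b c d : ℤ) : ℂ[X] →ₗ[ℂ] ℂ[X] :=
  ∑ j ∈ Finset.range (w + 1),
    (LinearMap.toSpanSingleton ℂ ℂ[X] ((actMonomial w a b c d j).map (Int.castRingHom ℂ))) ∘ₗ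
      (Polynomial.lcoeff ℂ j)

lemma polyAct_apply (w : ℕ) (a b c d : ℤ) (q : ℂ[X]) :
    polyAct w a b c d q =
      ∑ j ∈ Finset.range (w + 1), q.coeff j • (actMonomial w a b c d j).map (Int.castRingHom ℂ) := by
  simp [polyAct, LinearMap.sum_apply, LinearMap.toSpanSingleton_apply]

lemma natDegree_actMonomial_le (a b c d : ℤ) {w j : ℕ} (hj : j ≤ w) :
    (actMonomial w a b c d j).natDegree ≤ w := by
  have h1 : (C a * X + C b : ℤ[X]).natDegree ≤ 1 := natDegree_linear_le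
  have h2 : (C c * X + C d : ℤ[X]).natDegree ≤ 1 := natDegree_linear_le
  have h3 : ((C a * X + C b : ℤ[X]) ^ j).natDegree ≤ j :=
    natDegree_pow_le.trans (by simpa using Nat.mul_le_mul_left j h1)
  have h4 : ((C c * X + C d : ℤ[X]) ^ (w - j)).natDegree ≤ w - j :=
    natDegree_pow_le.trans (by simpa using Nat.mul_le_mul_left (w - j) h2)
  have h5 := natDegree_mul_le (p := (C a * X + C b : ℤ[X]) ^ j)
    (q := (C c * X + C d : ℤ[X]) ^ (w - j))
  rw [actMonomial]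
  omega

lemma eval_map_actMonomial (w : ℕ) (a b c d : ℤ) (j : ℕ) (z : ℂ) :
    ((actMonomial w a b c d j).map (Int.castRingHom ℂ)).eval z =
      ((a : ℂ) * z + b) ^ j * ((c : ℂ) * z + d) ^ (w - j) := by
  simp [actMonomial]

theorem polyAct_natDegree_le (w : ℕ) (a b c d : ℤ) (q : ℂ[X]) :
    (polyAct w a b c d q).natDegree ≤ w := by
  rw [polyAct_apply]
  refine natDegree_sum_le_of_forall_le _ _ fun j hj => ?_
  have hj' : j ≤ w := Nat.lt_succ_iff.mp (Finset.mem_range.mp hj)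
  exact (natDegree_smul_le _ _).trans
    (natDegree_map_le.trans (natDegree_actMonomial_le a b c d hj'))

theorem polyAct_eval (w : ℕ) (a b c d : ℤ) (q : ℂ[X]) (hq : q.natDegree ≤ w) (z : ℂ)
    (hz : (c : ℂ) * z + d ≠ 0) :
    (polyAct w a b c d q).eval z =
      ((c : ℂ) * z + d) ^ w * q.eval (((a : ℂ) * z + b) / ((c : ℂ) * z + d)) := by
  rw [polyAct_apply, eval_finsetSum, eval_eq_sum_range' (Nat.lt_succ_of_le hq), Finset.mul_sum]
  refine Finset.sum_congr rfl fun j hj => ?_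
  have hj' : j ≤ w := Nat.lt_succ_iff.mp (Finset.mem_range.mp hj)
  rw [eval_smul, eval_map_actMonomial, smul_eq_mul, div_pow]
  have h1 : ((c : ℂ) * z + d) ^ w = ((c : ℂ) * z + d) ^ j * ((c : ℂ) * z + d) ^ (w - j) := by
    rw [← pow_add, Nat.add_sub_cancel' hj']
  have h2 : ((c : ℂ) * z + d) ^ j ≠ 0 := pow_ne_zero _ hz
  rw [h1, div_eq_mul_inv]
  calc q.coeff j * (((a : ℂ) * z + b) ^ j * ((c : ℂ) * z + d) ^ (w - j))
      = (((c : ℂ) * z + d) ^ j * (((c : ℂ) * z + d) ^ j)⁻¹) *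
          (q.coeff j * (((a : ℂ) * z + b) ^ j * ((c : ℂ) * z + d) ^ (w - j))) := by
        rw [mul_inv_cancel₀ h2, one_mul]
    _ = _ := by ring

section InLat

variable {V : Type*} [AddCommGroup V] [Module ℂ V]

/-- All coefficient functionals of the polynomial-valued linear map `φ` lie in `Λ`. -/
def InLat (Λ : Submodule ℤ (Module.Dual ℂ V)) (φ : V →ₗ[ℂ] ℂ[X]) : Prop :=
  ∀ j, (Polynomial.lcoeff ℂ j) ∘ₗ φ ∈ Λ

variable {Λ : Submodule ℤ (Module.Dual ℂ V)} {φ ψ : V →ₗ[ℂ] ℂ[X]}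

theorem InLat.zero : InLat Λ (0 : V →ₗ[ℂ] ℂ[X]) := fun j => by
  rw [LinearMap.comp_zero]; exact Λ.zero_mem

theorem InLat.add (hφ : InLat Λ φ) (hψ : InLat Λ ψ) : InLat Λ (φ + ψ) := fun j => by
  rw [LinearMap.comp_add]; exact Λ.add_mem (hφ j) (hψ j)

theorem InLat.neg (hφ : InLat Λ φ) : InLat Λ (-φ) := fun j => by
  rw [LinearMap.comp_neg]; exact Λ.neg_mem (hφ j)

theorem InLat.sub (hφ : InLat Λ φ) (hψ : InLat Λ ψ) : InLat Λ (φ - ψ) := fun j => by
  rw [LinearMap.comp_sub]; exact Λ.sub_mem (hφ j) (hψ j)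

theorem InLat.zsmul (n : ℤ) (hφ : InLat Λ φ) : InLat Λ (n • φ) := fun j => by
  rw [LinearMap.comp_smul]; exact Λ.smul_mem n (hφ j)

theorem InLat.sum {ι : Type*} (s : Finset ι) (f : ι → V →ₗ[ℂ] ℂ[X])
    (h : ∀ i ∈ s, InLat Λ (f i)) : InLat Λ (∑ i ∈ s, f i) := by
  classical
  induction s using Finset.induction_on with
  | empty => simpa using (InLat.zero : InLat Λ (0 : V →ₗ[ℂ] ℂ[X]))
  | insert i t hi IH =>
    rw [Finset.sum_insert hi]
    exact (h i (Finset.mem_insert_self i t)).add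
      (IH fun k hk => h k (Finset.mem_insert_of_mem hk))

theorem InLat.comp_right (T : Module.End ℂ V) (hT : ∀ l ∈ Λ, l ∘ₗ T ∈ Λ) (hφ : InLat Λ φ) :
    InLat Λ (φ ∘ₗ T) := fun j => by
  rw [← LinearMap.comp_assoc]; exact hT _ (hφ j)

lemma lcoeff_comp_polyAct (w : ℕ) (a b c d : ℤ) (i : ℕ) (φ : V →ₗ[ℂ] ℂ[X]) :
    (Polynomial.lcoeff ℂ i) ∘ₗ (polyAct w a b c d ∘ₗ φ) =
      ∑ j ∈ Finset.range (w + 1),
        ((actMonomial w a b c d j).coeff i) • ((Polynomial.lcoeff ℂ j) ∘ₗ φ) := by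
  ext v
  simp only [LinearMap.comp_apply, lcoeff_apply, polyAct_apply, finsetSum_coeff, coeff_smul,
    coeff_map, LinearMap.sum_apply, LinearMap.smul_apply, smul_eq_mul, zsmul_eq_mul,
    eq_intCast]
  refine Finset.sum_congr rfl fun j _ => ?_
  ring

theorem InLat.polyAct (h : InLat Λ φ) (w : ℕ) (a b c d : ℤ) :
    InLat Λ (polyAct w a b c d ∘ₗ φ) := fun i => by
  rw [lcoeff_comp_polyAct]
  exact Λ.sum_mem fun j _ => Λ.smul_mem _ (h j)

end InLat

/-- Comparison of `polyAct` with Mathlib's weight `-w` slash action: for an integral matrix `g`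
of determinant `Δ > 0`, `Δ^(w+1) * (q ∣[-w] g) = polyAct q` as functions on `ℍ`. -/
theorem slash_ev_of_int (w : ℕ) (g : GL (Fin 2) ℝ) (a b c d : ℤ)
    (hg : (g : Matrix (Fin 2) (Fin 2) ℝ) = !![(a : ℝ), b; c, d]) (hdet : 0 < a * d - b * c)
    (q : ℂ[X]) (hq : q.natDegree ≤ w) (τ : ℍ) :
    (((a * d - b * c : ℤ) : ℂ)) ^ (w + 1) * ((fun z : ℍ => q.eval (z : ℂ)) ∣[-(w : ℤ)] g) τ =
      (polyAct w a b c d q).eval (τ : ℂ) := by
  have hdetR : (Matrix.GeneralLinearGroup.det g : ℝ) = ((a * d - b * c : ℤ) : ℝ) := by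
    rw [Matrix.GeneralLinearGroup.val_det_apply, hg, Matrix.det_fin_two_of]
    push_cast; ring
  have hpos : 0 < (Matrix.GeneralLinearGroup.det g : ℝ) := by
    rw [hdetR]; exact_mod_cast hdet
  have hden : denom g τ = (c : ℂ) * τ + d := by
    change ((g : Matrix (Fin 2) (Fin 2) ℝ) 1 0 : ℂ) * (τ : ℂ) +
      ((g : Matrix (Fin 2) (Fin 2) ℝ) 1 1 : ℂ) = _
    rw [hg]; simp
  have hnum : num g τ = (a : ℂ) * τ + b := by
    change ((g : Matrix (Fin 2) (Fin 2) ℝ) 0 0 : ℂ) * (τ : ℂ) +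
      ((g : Matrix (Fin 2) (Fin 2) ℝ) 0 1 : ℂ) = _
    rw [hg]; simp
  have hne : (c : ℂ) * τ + d ≠ 0 := hden ▸ denom_ne_zero g τ
  have hΔ : (((a * d - b * c : ℤ) : ℂ)) ≠ 0 := by
    exact_mod_cast hdet.ne'
  rw [polyAct_eval w a b c d q hq τ hne, ModularForm.slash_apply, UpperHalfPlane.σ,
    if_pos hpos, coe_smul_of_det_pos hpos, hden, hnum, hdetR, abs_of_pos (by exact_mod_cast hdet)]
  simp only [ContinuousAlgEquiv.refl_apply, neg_neg, zpow_natCast]
  have h1 : (((((a * d - b * c : ℤ) : ℝ)) : ℂ)) ^ (-(w : ℤ) - 1) =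
      ((((a * d - b * c : ℤ) : ℂ)) ^ (w + 1))⁻¹ := by
    have : (-(w : ℤ) - 1) = -((w + 1 : ℕ) : ℤ) := by push_cast; ring
    rw [this, zpow_neg, zpow_natCast]
    push_cast; rfl
  rw [h1]
  have h3 : (((a * d - b * c : ℤ) : ℂ)) ^ (w + 1) ≠ 0 := pow_ne_zero _ hΔ
  calc (((a * d - b * c : ℤ) : ℂ)) ^ (w + 1) *
        (q.eval (((a : ℂ) * τ + b) / ((c : ℂ) * τ + d)) *
          ((((a * d - b * c : ℤ) : ℂ)) ^ (w + 1))⁻¹ * ((c : ℂ) * τ + d) ^ w)
      = ((((a * d - b * c : ℤ) : ℂ)) ^ (w + 1) * ((((a * d - b * c : ℤ) : ℂ)) ^ (w + 1))⁻¹) *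
          (((c : ℂ) * τ + d) ^ w * q.eval (((a : ℂ) * τ + b) / ((c : ℂ) * τ + d))) := by ring
    _ = _ := by rw [mul_inv_cancel₀ h3, one_mul]

end Fermat.Agent.S22ES
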