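import Mathlib

/-!
# Holomorphic functions on the upper half plane with vanishing higher derivative are polynomials
-/

set_option autoImplicit false

noncomputable section

open UpperHalfPlane hiding I
open Complex Filter Function Polynomial
open scoped Topology Manifold

namespace Fermat.Agent.S22ES

/-- A polynomial antiderivative. -/
def polyPrim (q : ℂ[X]) (n : ℕ) : ℂ[X] :=
  ∑ i ∈ Finset.range n, C (q.coeff i / ((i : ℂ) + 1)) * X ^ (i + 1)

theorem derivative_polyPrim (q : ℂ[X]) (n : ℕ) (hq : q.degree < n) :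
    derivative (polyPrim q n) = q := by
  by_cases hq0 : q = 0
  · subst hq0
    simp [polyPrim]
  have hn : q.natDegree < n := (natDegree_lt_iff_degree_lt hq0).mpr hq
  rw [polyPrim, derivative_sum]
  conv_rhs => rw [q.as_sum_range' n hn]
  refine Finset.sum_congr rfl fun i _ => ?_
  have hi : ((i : ℂ) + 1) ≠ 0 := by
    have := Nat.cast_add_one_ne_zero (R := ℂ) i
    exact this
  rw [derivative_C_mul, derivative_X_pow, Nat.add_sub_cancel, ← C_mul_X_pow_eq_monomial,
    ← mul_assoc]
  congr 1
  rw [← C_mul]
  congr 1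
  push_cast
  rw [div_mul_cancel₀ _ hi]

theorem degree_polyPrim_lt (q : ℂ[X]) (n : ℕ) : (polyPrim q n).degree < (n + 1 : ℕ) := by
  rw [polyPrim]
  refine lt_of_le_of_lt (degree_sum_le _ _) ?_
  rw [Finset.sup_lt_iff (by exact WithBot.bot_lt_coe _)]
  intro i hi
  refine lt_of_le_of_lt (degree_C_mul_X_pow_le _ _) ?_
  have := Finset.mem_range.mp hi
  exact_mod_cast Nat.succ_lt_succ this

theorem polyLemma_isPreconnected_imPos : IsPreconnected {z : ℂ | 0 < z.im} :=
  (convex_halfSpace_im_gt 0).isPreconnected

theorem polyLemma_isOpen_imPos : IsOpen {z : ℂ | 0 < z.im} :=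
  isOpen_lt continuous_const Complex.continuous_im

/-- A holomorphic function on the upper half plane whose `n`-th derivative vanishes is a
polynomial of degree `< n`. -/
theorem exists_polynomial_of_iteratedDeriv_eq_zero (n : ℕ) (H : ℂ → ℂ)
    (hH : DifferentiableOn ℂ H {z : ℂ | 0 < z.im})
    (h0 : ∀ z : ℂ, 0 < z.im → iteratedDeriv n H z = 0) :
    ∃ p : Polynomial ℂ, p.degree < n ∧ ∀ z : ℂ, 0 < z.im → H z = p.eval z := by
  induction n generalizing H with
  | zero =>
    refine ⟨0, by simp, fun z hz => ?_⟩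
    have := h0 z hz
    simpa [iteratedDeriv_zero] using this
  | succ n ih =>
    have hW := polyLemma_isOpen_imPos
    have hd : DifferentiableOn ℂ (deriv H) {z : ℂ | 0 < z.im} := hH.deriv hW
    obtain ⟨q, hq, hqe⟩ := ih (deriv H) hd (fun z hz => by
      rw [← iteratedDeriv_succ']
      exact h0 z hz)
    have hQd : DifferentiableOn ℂ (fun z => (polyPrim q n).eval z) {z : ℂ | 0 < z.im} :=
      (polyPrim q n).differentiable.differentiableOn
    obtain ⟨a, ha⟩ := hW.exists_eq_add_of_deriv_eq polyLemma_isPreconnected_imPos hH hQd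
      (fun z hz => by
        change deriv H z = deriv (fun z => (polyPrim q n).eval z) z
        rw [Polynomial.deriv, derivative_polyPrim q n hq]
        exact hqe z hz)
    refine ⟨polyPrim q n + C a, ?_, fun z hz => ?_⟩
    · refine lt_of_le_of_lt (degree_add_le _ _) (max_lt (degree_polyPrim_lt q n) ?_)
      refine lt_of_le_of_lt degree_C_le ?_
      exact_mod_cast Nat.succ_pos n
    · rw [eval_add, eval_C]
      exact ha hz

/-- A polynomial tending to `0` along the imaginary axis is zero. -/
theorem polynomial_eq_zero_of_tendsto (p : Polynomial ℂ)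
    (h : Tendsto (fun t : ℝ => p.eval ((t : ℂ) * Complex.I)) atTop (nhds 0)) : p = 0 := by
  by_cases hd : 0 < p.degree
  · exfalso
    have hz : Tendsto (fun t : ℝ => ‖(t : ℂ) * Complex.I‖) atTop atTop := by
      have : (fun t : ℝ => ‖(t : ℂ) * Complex.I‖) = fun t : ℝ => |t| := by
        funext t
        simp
      rw [this]
      exact tendsto_abs_atTop_atTop
    have h1 := p.tendsto_norm_atTop hd hz
    have h2 : Tendsto (fun t : ℝ => ‖p.eval ((t : ℂ) * Complex.I)‖) atTop (nhds 0) := by
      simpa using h.norm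
    exact not_tendsto_nhds_of_tendsto_atTop h1 _ h2
  · have hc : p = C (p.coeff 0) := eq_C_of_degree_le_zero (not_lt.mp hd)
    rw [hc] at h ⊢
    simp only [eval_C] at h
    have := tendsto_nhds_unique h tendsto_const_nhds
    rw [← this, map_zero]

/-- A polynomial which is periodic on the upper half plane is constant. -/
theorem polynomial_const_of_periodic (p : Polynomial ℂ) (h : ℂ) (hh : h ≠ 0)
    (hp : ∀ z : ℂ, 0 < z.im → p.eval (z + h) = p.eval z) : ∃ c : ℂ, p = Polynomial.C c := by
  -- Step A: periodicity everywhere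
  have hA : p.comp (X + C h) - p = 0 := by
    apply eq_zero_of_infinite_isRoot
    have hsub : {z : ℂ | 0 < z.im} ⊆ {x | IsRoot (p.comp (X + C h) - p) x} := by
      intro z hz
      simp only [Set.mem_ofPred_eq, IsRoot.def, eval_sub, eval_comp, eval_add, eval_X, eval_C]
      rw [hp z hz, sub_self]
    refine Set.Infinite.mono hsub ?_
    have hinj : Function.Injective (fun n : ℕ => ((n : ℂ) + 1) * Complex.I) := by
      intro m n hmn
      have h1 : ((m : ℂ) + 1) = (n : ℂ) + 1 := mul_right_cancel₀ Complex.I_ne_zero hmn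
      exact_mod_cast add_right_cancel h1
    refine Set.infinite_of_injective_forall_mem hinj (fun n => ?_)
    simp only [Set.mem_ofPred_eq, Complex.mul_I_im, Complex.add_re, Complex.natCast_re,
      Complex.one_re]
    positivity
  have hper : ∀ z : ℂ, p.eval (z + h) = p.eval z := by
    intro z
    have := congrArg (fun r => r.eval z) hA
    simp only [eval_sub, eval_comp, eval_add, eval_X, eval_C, eval_zero] at this
    exact sub_eq_zero.mp this
  have hn : ∀ n : ℕ, p.eval ((n : ℂ) * h) = p.eval 0 := by
    intro n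
    induction n with
    | zero => simp
    | succ n ih =>
      rw [← ih, ← hper ((n : ℂ) * h)]
      congr 1
      push_cast
      ring
  refine ⟨p.eval 0, ?_⟩
  have hB : p - C (p.eval 0) = 0 := by
    apply eq_zero_of_infinite_isRoot
    have hinj : Function.Injective (fun n : ℕ => (n : ℂ) * h) := by
      intro m n hmn
      have h1 : (m : ℂ) = (n : ℂ) := mul_right_cancel₀ hh hmn
      exact_mod_cast h1
    refine Set.infinite_of_injective_forall_mem hinj (fun n => ?_)
    simp only [Set.mem_ofPred_eq, IsRoot.def, eval_sub, eval_C]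
    rw [hn n, sub_self]
  exact sub_eq_zero.mp hB

/-- A holomorphic function on `ℍ` with vanishing `(w+1)`-th derivative is a polynomial of
degree `≤ w`. -/
theorem exists_poly_of_iteratedDeriv_eq_zero (w : ℕ) (G : ℍ → ℂ) (hG : MDiff G)
    (h0 : ∀ z : ℍ, iteratedDeriv (w + 1) (G ∘ ofComplex) z = 0) :
    ∃ q : ℂ[X], q.natDegree ≤ w ∧ ∀ z : ℍ, G z = q.eval (z : ℂ) := by
  have hH : DifferentiableOn ℂ (G ∘ ofComplex) {z : ℂ | 0 < z.im} :=
    UpperHalfPlane.mdifferentiable_iff.mp hG
  obtain ⟨p, hp, hpe⟩ := exists_polynomial_of_iteratedDeriv_eq_zero (w + 1) (G ∘ ofComplex) hH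
    (fun z hz => h0 ⟨z, hz⟩)
  refine ⟨p, ?_, fun z => ?_⟩
  · by_cases hp0 : p = 0
    · subst hp0
      simp
    · have := (natDegree_lt_iff_degree_lt hp0).mpr hp
      omega
  · have := hpe z z.im_pos
    simpa using this

/-- A holomorphic function on `ℍ` with vanishing `n`-th derivative which tends to zero at `i∞`
is zero. -/
theorem eq_zero_of_iteratedDeriv_eq_zero (n : ℕ) (G : ℍ → ℂ) (hG : MDiff G)
    (h0 : ∀ z : ℍ, iteratedDeriv n (G ∘ ofComplex) z = 0) (hz : IsZeroAtImInfty G) : G = 0 := by
  have hH : DifferentiableOn ℂ (G ∘ ofComplex) {z : ℂ | 0 < z.im} :=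
    UpperHalfPlane.mdifferentiable_iff.mp hG
  obtain ⟨p, -, hpe⟩ := exists_polynomial_of_iteratedDeriv_eq_zero n (G ∘ ofComplex) hH
    (fun z hz => h0 ⟨z, hz⟩)
  have hp0 : p = 0 := by
    apply polynomial_eq_zero_of_tendsto
    have h1 : Tendsto (fun t : ℝ => (t : ℂ) * Complex.I) atTop (comap Complex.im atTop) := by
      rw [tendsto_comap_iff]
      have : (Complex.im ∘ fun t : ℝ => (t : ℂ) * Complex.I) = id := by
        funext t
        simp
      rw [this]
      exact tendsto_id
    have h2 : Tendsto (fun t : ℝ => G (ofComplex ((t : ℂ) * Complex.I))) atTop (nhds 0) :=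
      hz.comp (tendsto_comap_im_ofComplex.comp h1)
    refine h2.congr' ?_
    filter_upwards [eventually_gt_atTop 0] with t ht
    have him : 0 < ((t : ℂ) * Complex.I).im := by simpa using ht
    exact hpe _ him
  funext z
  have := hpe z z.im_pos
  rw [hp0] at this
  simpa using this

end Fermat.Agent.S22ES
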