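import Mathlib
import Fermat.Agent.S22ES.CuspFacts
import Fermat.Agent.S22ES.BolH
import Fermat.Agent.S22ES.PolyLemma
import Fermat.Agent.S22ES.PolyAct

set_option autoImplicit false

/-!
# Period polynomials of cusp forms on `Γ₀(N)` (helper file for S22)
-/

noncomputable section

open UpperHalfPlane hiding I
open Complex Filter Function Polynomial
open scoped Topology Manifold MatrixGroups ModularForm

namespace Fermat.Agent.S22ES

/-! ### Differentiation on the upper half plane -/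

theorem contDiffAt_comp_ofComplex {F : ℍ → ℂ} (hF : MDiff F) (n : WithTop ℕ∞) (z : ℍ) :
    ContDiffAt ℂ n (F ∘ ofComplex) (z : ℂ) := by
  have h1 : DifferentiableOn ℂ (F ∘ ofComplex) {w : ℂ | 0 < w.im} :=
    UpperHalfPlane.mdifferentiable_iff.mp hF
  have h2 : AnalyticAt ℂ (F ∘ ofComplex) (z : ℂ) :=
    h1.analyticAt (isOpen_upperHalfPlaneSet'.mem_nhds z.im_pos)
  exact h2.contDiffAt.of_le le_top

theorem iteratedDeriv_add_H {F G : ℍ → ℂ} (hF : MDiff F) (hG : MDiff G) (n : ℕ) (z : ℍ) :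
    iteratedDeriv n ((F + G) ∘ ofComplex) z
      = iteratedDeriv n (F ∘ ofComplex) z + iteratedDeriv n (G ∘ ofComplex) z := by
  have : ((F + G) ∘ ofComplex) = (F ∘ ofComplex) + (G ∘ ofComplex) := rfl
  rw [this]
  exact iteratedDeriv_add (contDiffAt_comp_ofComplex hF n z) (contDiffAt_comp_ofComplex hG n z)

theorem iteratedDeriv_sub_H {F G : ℍ → ℂ} (hF : MDiff F) (hG : MDiff G) (n : ℕ) (z : ℍ) :
    iteratedDeriv n ((F - G) ∘ ofComplex) z
      = iteratedDeriv n (F ∘ ofComplex) z - iteratedDeriv n (G ∘ ofComplex) z := by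
  have : ((F - G) ∘ ofComplex) = (F ∘ ofComplex) - (G ∘ ofComplex) := rfl
  rw [this]
  exact iteratedDeriv_sub (contDiffAt_comp_ofComplex hF n z) (contDiffAt_comp_ofComplex hG n z)

theorem iteratedDeriv_smul_H {F : ℍ → ℂ} (c : ℂ) (n : ℕ) (z : ℍ) :
    iteratedDeriv n ((c • F) ∘ ofComplex) z = c * iteratedDeriv n (F ∘ ofComplex) z := by
  have : ((c • F) ∘ ofComplex) = c • (F ∘ ofComplex) := rfl
  rw [this, iteratedDeriv_const_smul_field]
  simp

/-! ### The canonical primitive -/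

variable {N : ℕ} [NeZero N] (w : ℕ)

/-- The canonical `(w+1)`-fold primitive of a cusp form of weight `w + 2`: holomorphic,
zero at `i∞`. -/
def prim (f : CuspForm (CongruenceSubgroup.Gamma0 N) ((w : ℤ) + 2)) : ℍ → ℂ :=
  Classical.choose (exists_iterPrim one_pos (w + 1) (isPerCusp_cuspForm f))

theorem prim_isPerCusp (f : CuspForm (CongruenceSubgroup.Gamma0 N) ((w : ℤ) + 2)) :
    IsPerCusp 1 (prim w f) :=
  (Classical.choose_spec (exists_iterPrim one_pos (w + 1) (isPerCusp_cuspForm f))).1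

theorem prim_mdiff (f : CuspForm (CongruenceSubgroup.Gamma0 N) ((w : ℤ) + 2)) :
    MDiff (prim w f) := (prim_isPerCusp w f).mdiff

theorem prim_zero_at (f : CuspForm (CongruenceSubgroup.Gamma0 N) ((w : ℤ) + 2)) :
    IsZeroAtImInfty (prim w f) := (prim_isPerCusp w f).zero

theorem prim_deriv (f : CuspForm (CongruenceSubgroup.Gamma0 N) ((w : ℤ) + 2)) (z : ℍ) :
    iteratedDeriv (w + 1) (prim w f ∘ ofComplex) z = f z :=
  (Classical.choose_spec (exists_iterPrim one_pos (w + 1) (isPerCusp_cuspForm f))).2 z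

theorem prim_unique (f : CuspForm (CongruenceSubgroup.Gamma0 N) ((w : ℤ) + 2)) (F : ℍ → ℂ)
    (hF : MDiff F) (hz : IsZeroAtImInfty F)
    (hd : ∀ z : ℍ, iteratedDeriv (w + 1) (F ∘ ofComplex) z = f z) : F = prim w f := by
  have h0 : F - prim w f = 0 := by
    apply eq_zero_of_iteratedDeriv_eq_zero (w + 1) (F - prim w f) (hF.sub (prim_mdiff w f))
    · intro z
      rw [iteratedDeriv_sub_H hF (prim_mdiff w f), hd, prim_deriv, sub_self]
    · have h1 : IsZeroAtImInfty (F + -prim w f) := hz.add ((prim_zero_at w f).neg)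
      rwa [← sub_eq_add_neg] at h1
  exact sub_eq_zero.mp h0

theorem prim_add (f g : CuspForm (CongruenceSubgroup.Gamma0 N) ((w : ℤ) + 2)) :
    prim w (f + g) = prim w f + prim w g := by
  symm
  apply prim_unique
  · exact (prim_mdiff w f).add (prim_mdiff w g)
  · exact (prim_zero_at w f).add (prim_zero_at w g)
  · intro z
    rw [iteratedDeriv_add_H (prim_mdiff w f) (prim_mdiff w g), prim_deriv, prim_deriv]
    rfl

theorem prim_smul (c : ℂ) (f : CuspForm (CongruenceSubgroup.Gamma0 N) ((w : ℤ) + 2)) :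
    prim w (c • f) = c • prim w f := by
  symm
  apply prim_unique
  · exact (prim_mdiff w f).const_smul c
  · exact (prim_zero_at w f).smul c
  · intro z
    rw [iteratedDeriv_smul_H, prim_deriv]
    rfl

/-- The canonical primitive as a linear map. -/
def primL : CuspForm (CongruenceSubgroup.Gamma0 N) ((w : ℤ) + 2) →ₗ[ℂ] (ℍ → ℂ) where
  toFun := prim w
  map_add' := prim_add w
  map_smul' := prim_smul w

/-! ### Polynomial functions on `ℍ` -/

/-- Evaluation of polynomials as functions on `ℍ`. -/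
def evH : ℂ[X] →ₗ[ℂ] (ℍ → ℂ) where
  toFun q := fun z => q.eval (z : ℂ)
  map_add' p q := by funext z; simp
  map_smul' c q := by funext z; simp

@[simp] theorem evH_apply (q : ℂ[X]) (z : ℍ) : evH q z = q.eval (z : ℂ) := rfl

theorem infinite_upperHalfPlaneSet : {w : ℂ | 0 < w.im}.Infinite :=
  infinite_of_mem_nhds (I : ℂ) (isOpen_upperHalfPlaneSet'.mem_nhds (by simp))

theorem poly_ext_H {p q : ℂ[X]} (h : ∀ z : ℍ, p.eval (z : ℂ) = q.eval (z : ℂ)) : p = q := by
  apply Polynomial.eq_of_infinite_eval_eq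
  refine infinite_upperHalfPlaneSet.mono ?_
  intro z hz
  exact h ⟨z, hz⟩

theorem evH_injective : Function.Injective evH := by
  intro p q h
  exact poly_ext_H fun z => congrFun h z

/-! ### Period functions and period polynomials -/

/-- The period function `f ↦ F_f ∣[-w] γ - F_f`. -/
def perFun (γ : SL(2, ℤ)) :
    CuspForm (CongruenceSubgroup.Gamma0 N) ((w : ℤ) + 2) →ₗ[ℂ] (ℍ → ℂ) where
  toFun f := prim w f ∣[-(w : ℤ)] γ - prim w f
  map_add' f g := by
    rw [prim_add, SlashAction.add_slash]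
    abel
  map_smul' c f := by
    rw [prim_smul, ModularForm.SL_smul_slash]
    simp [smul_sub]

theorem perFun_apply (γ : SL(2, ℤ)) (f : CuspForm (CongruenceSubgroup.Gamma0 N) ((w : ℤ) + 2)) :
    perFun w γ f = prim w f ∣[-(w : ℤ)] γ - prim w f := rfl

omit [NeZero N] in
theorem slash_eq_of_mem_Gamma0 {k : ℤ} (f : CuspForm (CongruenceSubgroup.Gamma0 N) k)
    {γ : SL(2, ℤ)} (hγ : γ ∈ CongruenceSubgroup.Gamma0 N) : (⇑f) ∣[k] γ = ⇑f :=
  SlashInvariantFormClass.slash_action_eq f _ (Subgroup.mem_map_of_mem _ hγ)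

theorem exists_poly_perFun {γ : SL(2, ℤ)} (hγ : γ ∈ CongruenceSubgroup.Gamma0 N)
    (f : CuspForm (CongruenceSubgroup.Gamma0 N) ((w : ℤ) + 2)) :
    ∃ q : ℂ[X], q.natDegree ≤ w ∧ ∀ z : ℍ, perFun w γ f z = q.eval (z : ℂ) := by
  have hm : MDiff (prim w f ∣[-(w : ℤ)] γ) := (prim_mdiff w f).slash _ _
  apply exists_poly_of_iteratedDeriv_eq_zero w _ (hm.sub (prim_mdiff w f))
  intro z
  rw [iteratedDeriv_sub_H hm (prim_mdiff w f), iteratedDeriv_slash_SL w _
    (prim_mdiff w f), prim_deriv]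
  have h1 : (fun τ : ℍ => iteratedDeriv (w + 1) (prim w f ∘ ofComplex) τ) = ⇑f :=
    funext fun τ => prim_deriv w f τ
  rw [h1, slash_eq_of_mem_Gamma0 f hγ, sub_self]

/-- The period polynomial of `f` along `γ ∈ Γ₀(N)`, as a linear map. -/
def perPoly (γ : CongruenceSubgroup.Gamma0 N) :
    CuspForm (CongruenceSubgroup.Gamma0 N) ((w : ℤ) + 2) →ₗ[ℂ] ℂ[X] where
  toFun f := Classical.choose (exists_poly_perFun w γ.2 f)
  map_add' f g := by
    apply poly_ext_H
    intro z
    rw [Polynomial.eval_add, ← (Classical.choose_spec (exists_poly_perFun w γ.2 (f + g))).2 z,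
      ← (Classical.choose_spec (exists_poly_perFun w γ.2 f)).2 z,
      ← (Classical.choose_spec (exists_poly_perFun w γ.2 g)).2 z, map_add]
    rfl
  map_smul' c f := by
    apply poly_ext_H
    intro z
    rw [Polynomial.eval_smul, ← (Classical.choose_spec (exists_poly_perFun w γ.2 (c • f))).2 z,
      RingHom.id_apply,
      ← (Classical.choose_spec (exists_poly_perFun w γ.2 f)).2 z, map_smul]
    rfl

theorem perPoly_natDegree_le (γ : CongruenceSubgroup.Gamma0 N)
    (f : CuspForm (CongruenceSubgroup.Gamma0 N) ((w : ℤ) + 2)) :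
    (perPoly w γ f).natDegree ≤ w :=
  (Classical.choose_spec (exists_poly_perFun w γ.2 f)).1

theorem perPoly_eval (γ : CongruenceSubgroup.Gamma0 N)
    (f : CuspForm (CongruenceSubgroup.Gamma0 N) ((w : ℤ) + 2)) (z : ℍ) :
    (perPoly w γ f).eval (z : ℂ) = perFun w (γ : SL(2, ℤ)) f z :=
  ((Classical.choose_spec (exists_poly_perFun w γ.2 f)).2 z).symm

theorem evH_perPoly (γ : CongruenceSubgroup.Gamma0 N)
    (f : CuspForm (CongruenceSubgroup.Gamma0 N) ((w : ℤ) + 2)) :
    evH (perPoly w γ f) = perFun w (γ : SL(2, ℤ)) f :=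
  funext fun z => perPoly_eval w γ f z

/-! ### The cocycle relation -/

omit [NeZero N] in
theorem sub_slash_H {G : Type*} [Monoid G] [SlashAction ℤ G (ℍ → ℂ)] (k : ℤ) (g : G)
    (a b : ℍ → ℂ) : (a - b) ∣[k] g = a ∣[k] g - b ∣[k] g := by
  rw [sub_eq_add_neg, SlashAction.add_slash, SlashAction.neg_slash, ← sub_eq_add_neg]

theorem perFun_mul (γ δ : SL(2, ℤ)) (f : CuspForm (CongruenceSubgroup.Gamma0 N) ((w : ℤ) + 2)) :
    perFun w (γ * δ) f = (perFun w γ f) ∣[-(w : ℤ)] δ + perFun w δ f := by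
  simp only [perFun_apply, sub_slash_H, SlashAction.slash_mul]
  abel

theorem perFun_one (f : CuspForm (CongruenceSubgroup.Gamma0 N) ((w : ℤ) + 2)) :
    perFun w 1 f = 0 := by
  simp [perFun_apply]

/-- The action of `γ ∈ SL(2,ℤ)` on polynomials of degree `≤ w`. -/
def polyActSL (γ : SL(2, ℤ)) : ℂ[X] →ₗ[ℂ] ℂ[X] := polyAct w (γ 0 0) (γ 0 1) (γ 1 0) (γ 1 1)

omit [NeZero N] in
theorem evH_polyActSL (γ : SL(2, ℤ)) (q : ℂ[X]) (hq : q.natDegree ≤ w) :
    evH (polyActSL w γ q) = (evH q) ∣[-(w : ℤ)] γ := by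
  funext τ
  have hdet : γ 0 0 * γ 1 1 - γ 0 1 * γ 1 0 = 1 := by
    have h := γ.det_coe
    rwa [Matrix.det_fin_two] at h
  have hg : ((Matrix.SpecialLinearGroup.mapGL ℝ γ : GL (Fin 2) ℝ) : Matrix (Fin 2) (Fin 2) ℝ)
      = !![((γ 0 0 : ℤ) : ℝ), ((γ 0 1 : ℤ) : ℝ); ((γ 1 0 : ℤ) : ℝ), ((γ 1 1 : ℤ) : ℝ)] := by
    ext i j
    fin_cases i <;> fin_cases j <;> simp
  have := slash_ev_of_int w (Matrix.SpecialLinearGroup.mapGL ℝ γ) (γ 0 0) (γ 0 1) (γ 1 0) (γ 1 1)
    hg (by rw [hdet]; exact one_pos) q hq τ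
  rw [hdet] at this
  simp only [Int.cast_one, one_pow, one_mul] at this
  rw [evH_apply, polyActSL, ← this]
  rfl

theorem perPoly_mul (γ δ : CongruenceSubgroup.Gamma0 N) :
    perPoly w (γ * δ) = polyActSL w (δ : SL(2, ℤ)) ∘ₗ perPoly w γ + perPoly w δ := by
  ext1 f
  apply evH_injective
  rw [LinearMap.add_apply, map_add, LinearMap.comp_apply, evH_perPoly, evH_perPoly,
    evH_polyActSL w _ _ (perPoly_natDegree_le w γ f), evH_perPoly]
  exact perFun_mul w γ δ f

theorem perPoly_one : perPoly w (1 : CongruenceSubgroup.Gamma0 N) = 0 := by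
  ext1 f
  apply evH_injective
  rw [evH_perPoly, LinearMap.zero_apply, map_zero]
  exact perFun_one w f

theorem perPoly_inv (γ : CongruenceSubgroup.Gamma0 N) :
    perPoly w γ⁻¹ = -(polyActSL w ((γ⁻¹ : CongruenceSubgroup.Gamma0 N) : SL(2, ℤ)) ∘ₗ
      perPoly w γ) := by
  have h := perPoly_mul w γ γ⁻¹
  rw [mul_inv_cancel, perPoly_one] at h
  exact eq_neg_of_add_eq_zero_right h.symm

/-! ### The period lattice -/

/-- The finitely many coefficient functionals of the period polynomials of a finite set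
of elements of `Γ₀(N)`. -/
def genFunctionals (gens : Finset (CongruenceSubgroup.Gamma0 N)) :
    Set (Module.Dual ℂ (CuspForm (CongruenceSubgroup.Gamma0 N) ((w : ℤ) + 2))) :=
  (fun x : (CongruenceSubgroup.Gamma0 N) × ℕ => (Polynomial.lcoeff ℂ x.2) ∘ₗ perPoly w x.1) ''
    ((gens ×ˢ Finset.range (w + 1) : Finset ((CongruenceSubgroup.Gamma0 N) × ℕ)) : Set _)

/-- The period lattice. -/
def perLattice (gens : Finset (CongruenceSubgroup.Gamma0 N)) :
    Submodule ℤ (Module.Dual ℂ (CuspForm (CongruenceSubgroup.Gamma0 N) ((w : ℤ) + 2))) :=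
  Submodule.span ℤ (genFunctionals w gens)

theorem perLattice_fg (gens : Finset (CongruenceSubgroup.Gamma0 N)) :
    (perLattice w gens).FG :=
  Submodule.fg_span ((Finset.finite_toSet _).image _)

theorem inLat_perPoly_of_mem (gens : Finset (CongruenceSubgroup.Gamma0 N))
    {γ : CongruenceSubgroup.Gamma0 N} (hγ : γ ∈ gens) :
    InLat (perLattice w gens) (perPoly w γ) := by
  intro j
  by_cases hj : j < w + 1
  · apply Submodule.subset_span
    refine ⟨(γ, j), ?_, rfl⟩
    simp [hγ, hj]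
  · have h0 : (Polynomial.lcoeff ℂ j) ∘ₗ perPoly w γ = 0 := by
      ext1 f
      rw [LinearMap.comp_apply, Polynomial.lcoeff_apply, LinearMap.zero_apply]
      apply Polynomial.coeff_eq_zero_of_natDegree_lt
      have := perPoly_natDegree_le w γ f
      omega
    rw [h0]
    exact Submodule.zero_mem _

theorem inLat_perPoly (gens : Finset (CongruenceSubgroup.Gamma0 N))
    (hgens : Subgroup.closure (gens : Set (CongruenceSubgroup.Gamma0 N)) = ⊤)
    (γ : CongruenceSubgroup.Gamma0 N) : InLat (perLattice w gens) (perPoly w γ) := by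
  have hγ : γ ∈ Subgroup.closure (gens : Set (CongruenceSubgroup.Gamma0 N)) := by
    rw [hgens]; exact Subgroup.mem_top _
  induction hγ using Subgroup.closure_induction with
  | mem x hx => exact inLat_perPoly_of_mem w gens (by simpa using hx)
  | one => rw [perPoly_one]; exact InLat.zero
  | mul x y _ _ hx hy =>
    rw [perPoly_mul]
    exact (hx.polyAct w _ _ _ _).add hy
  | inv x _ hx =>
    rw [perPoly_inv]
    exact (hx.polyAct w _ _ _ _).neg

end Fermat.Agent.S22ES
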