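import Mathlib
import Fermat.Prelude.Def_CuspForm_HeckeAlgebra
import Fermat.Agent.S22ES.Period
import Fermat.Agent.S22ES.HeckeCoset

set_option autoImplicit false

/-!
# Hecke operators and canonical primitives (helper file for S22)
-/

noncomputable section

open UpperHalfPlane hiding I
open Complex Filter Function Polynomial
open scoped Topology Manifold MatrixGroups ModularForm

namespace Fermat.Agent.S22ES

theorem iteratedDeriv_sum_H {ι : Type} (s : Finset ι) (F : ι → ℍ → ℂ)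
    (hF : ∀ i ∈ s, MDiff (F i)) (n : ℕ) (z : ℍ) :
    iteratedDeriv n ((∑ i ∈ s, F i) ∘ ofComplex) z
      = ∑ i ∈ s, iteratedDeriv n (F i ∘ ofComplex) z := by
  classical
  induction s using Finset.induction_on with
  | empty =>
    have : ((∑ i ∈ (∅ : Finset ι), F i) ∘ ofComplex) = fun _ => (0 : ℂ) := by
      funext x; simp
    rw [this]
    simp
  | insert a t ha ih =>
    rw [Finset.sum_insert ha, Finset.sum_insert ha,
      iteratedDeriv_add_H (hF a (Finset.mem_insert_self _ _))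
        (MDifferentiable.sum fun i hi => hF i (Finset.mem_insert_of_mem hi)),
      ih fun i hi => hF i (Finset.mem_insert_of_mem hi)]

theorem isZeroAtImInfty_sum {ι : Type} (s : Finset ι) (F : ι → ℍ → ℂ)
    (hF : ∀ i ∈ s, IsZeroAtImInfty (F i)) : IsZeroAtImInfty (∑ i ∈ s, F i) := by
  classical
  induction s using Finset.induction_on with
  | empty =>
    simp only [Finset.sum_empty]
    exact Filter.zero_zeroAtFilter _
  | insert a t ha ih =>
    rw [Finset.sum_insert ha]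
    exact (hF a (Finset.mem_insert_self _ _)).add (ih fun i hi => hF i (Finset.mem_insert_of_mem hi))

variable {N : ℕ} [NeZero N] (w : ℕ)

/-- If `g = ∑ f ∣[w+2] αᵢ` for upper triangular `αᵢ` of determinant `p`, then the canonical
primitive of `g` is `p ^ (w+1) • ∑ F_f ∣[-w] αᵢ`. -/
theorem prim_hecke {ι : Type} (s : Finset ι) (α : ι → GL (Fin 2) ℝ) (a b d : ι → ℝ) (p : ℝ)
    (hα : ∀ i ∈ s, 0 < a i ∧ 0 < d i ∧ a i * d i = p ∧
      (α i : Matrix (Fin 2) (Fin 2) ℝ) = !![a i, b i; 0, d i])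
    (f g : CuspForm (CongruenceSubgroup.Gamma0 N) ((w : ℤ) + 2))
    (hfg : (⇑g : ℍ → ℂ) = ∑ i ∈ s, (⇑f) ∣[(w : ℤ) + 2] α i) :
    prim w g = ((p : ℂ) ^ (w + 1)) • ∑ i ∈ s, prim w f ∣[-(w : ℤ)] α i := by
  symm
  have hmd : ∀ i ∈ s, MDiff (prim w f ∣[-(w : ℤ)] α i) := fun i _ =>
    (prim_mdiff w f).slash _ _
  apply prim_unique
  · exact (MDifferentiable.sum hmd).const_smul _
  · have h1 : IsZeroAtImInfty (∑ i ∈ s, prim w f ∣[-(w : ℤ)] α i) := by
      apply isZeroAtImInfty_sum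
      intro i hi
      apply IsZeroAtImInfty.slash _ _ (prim_zero_at w f)
      have := (hα i hi).2.2.2
      have h10 := congrFun (congrFun this 1) 0
      simpa using h10
    exact h1.smul _
  · intro z
    rw [iteratedDeriv_smul_H, iteratedDeriv_sum_H s _ hmd, Finset.mul_sum, hfg,
      Finset.sum_apply]
    refine Finset.sum_congr rfl fun i hi => ?_
    obtain ⟨ha, hd, had, hmat⟩ := hα i hi
    have h := iteratedDeriv_slash_upper w (prim w f) (prim_mdiff w f) (α i) (a i) (b i) (d i)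
      ha hd hmat z
    rw [had] at h
    rw [h]
    have h1 : (fun τ : ℍ => iteratedDeriv (w + 1) (prim w f ∘ ofComplex) τ) = ⇑f :=
      funext fun τ => prim_deriv w f τ
    rw [h1]

/-- The canonical primitive of `T_p f`. -/
theorem prim_heckeT {p : ℕ} (hp : p.Prime) (hpN : ¬ p ∣ N)
    (f : CuspForm (CongruenceSubgroup.Gamma0 N) ((w : ℤ) + 2)) :
    prim w (CuspForm.heckeTLin ((w : ℤ) + 2) hp hpN f)
      = ((p : ℂ) ^ (w + 1)) • ModularForm.heckeT (-(w : ℤ)) p (prim w f) := by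
  have hp0 : p ≠ 0 := hp.ne_zero
  have hppos : (0 : ℝ) < p := by exact_mod_cast hp.pos
  have key := prim_hecke w (Finset.insertNone (Finset.range p))
    (fun x : Option ℕ => x.elim (ModularForm.heckeDiagMatrix p) (ModularForm.heckeMatrix p))
    (fun x : Option ℕ => x.elim (p : ℝ) (fun _ => 1))
    (fun x : Option ℕ => x.elim 0 (fun j => (j : ℝ)))
    (fun x : Option ℕ => x.elim 1 (fun _ => (p : ℝ))) (p : ℝ) ?_ f
    (CuspForm.heckeTLin ((w : ℤ) + 2) hp hpN f) ?_
  · rw [key, Finset.sum_insertNone, ModularForm.heckeT_def]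
    simp only [Option.elim_none, Option.elim_some, Complex.ofReal_natCast]
    congr 1
    exact add_comm _ _
  · intro x _
    cases x with
    | none =>
      simp only [Option.elim_none]
      exact ⟨hppos, one_pos, mul_one _, ModularForm.val_heckeDiagMatrix hp0⟩
    | some j =>
      simp only [Option.elim_some]
      exact ⟨one_pos, hppos, one_mul _, ModularForm.val_heckeMatrix hp0 j⟩
  · rw [CuspForm.coe_heckeTLin_apply, ModularForm.heckeT_def, Finset.sum_insertNone]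
    simp only [Option.elim_none, Option.elim_some]
    exact add_comm _ _

/-- The canonical primitive of `U_p f`. -/
theorem prim_heckeU {p : ℕ} (hpN : p ∣ N)
    (f : CuspForm (CongruenceSubgroup.Gamma0 N) ((w : ℤ) + 2)) :
    prim w (CuspForm.heckeULin ((w : ℤ) + 2) hpN f)
      = ((p : ℂ) ^ (w + 1)) • ModularForm.heckeU (-(w : ℤ)) p (prim w f) := by
  have hp0 : p ≠ 0 := by
    rintro rfl
    exact NeZero.ne N (Nat.eq_zero_of_zero_dvd hpN)
  have hppos : (0 : ℝ) < p := by exact_mod_cast Nat.pos_of_ne_zero hp0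
  have key := prim_hecke w (Finset.range p)
    (fun j : ℕ => ModularForm.heckeMatrix p j)
    (fun _ : ℕ => (1 : ℝ)) (fun j : ℕ => (j : ℝ)) (fun _ : ℕ => (p : ℝ)) (p : ℝ) ?_ f
    (CuspForm.heckeULin ((w : ℤ) + 2) hpN f) ?_
  · rw [key, ModularForm.heckeU_def]
    simp only [Complex.ofReal_natCast]
  · intro j _
    exact ⟨one_pos, hppos, one_mul _, ModularForm.val_heckeMatrix hp0 j⟩
  · rw [CuspForm.coe_heckeULin_apply, ModularForm.heckeU_def]

/-- Abstract Hecke stability: a period relation for `T` implies that `perPoly γ ∘ T` has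
coefficient functionals in any lattice containing those of all `perPoly γ'`. -/
theorem inLat_of_period_relation
    (Λ : Submodule ℤ (Module.Dual ℂ (CuspForm (CongruenceSubgroup.Gamma0 N) ((w : ℤ) + 2))))
    (hΛ : ∀ γ : CongruenceSubgroup.Gamma0 N, InLat Λ (perPoly w γ))
    (T : Module.End ℂ (CuspForm (CongruenceSubgroup.Gamma0 N) ((w : ℤ) + 2)))
    (γ : CongruenceSubgroup.Gamma0 N) {ι : Type} [Fintype ι] (γ' : ι → SL(2, ℤ))
    (a b d : ι → ℤ) (α : ι → GL (Fin 2) ℝ) (p : ℕ)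
    (hγ' : ∀ i, γ' i ∈ CongruenceSubgroup.Gamma0 N)
    (hα : ∀ i, 0 < a i * d i ∧ ((α i : GL (Fin 2) ℝ) : Matrix (Fin 2) (Fin 2) ℝ)
          = !![(a i : ℝ), (b i : ℝ); ((0 : ℤ) : ℝ), (d i : ℝ)] ∧ a i * d i = p)
    (hrel : ∀ f, perFun w (γ : SL(2, ℤ)) (T f)
      = ((p : ℂ) ^ (w + 1)) • ∑ i, (perFun w (γ' i) f) ∣[-(w : ℤ)] (α i)) :
    InLat Λ (perPoly w γ ∘ₗ T) := by
  have hEq : perPoly w γ ∘ₗ T
      = ∑ i, polyAct w (a i) (b i) 0 (d i) ∘ₗ perPoly w ⟨γ' i, hγ' i⟩ := by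
    ext1 f
    apply evH_injective
    rw [LinearMap.comp_apply, evH_perPoly, hrel f, LinearMap.sum_apply, map_sum, Finset.smul_sum]
    refine Finset.sum_congr rfl fun i _ => ?_
    obtain ⟨hpos, hmat, hdet⟩ := hα i
    funext τ
    have h := slash_ev_of_int w (α i) (a i) (b i) 0 (d i) hmat
      (by simpa using hpos) (perPoly w ⟨γ' i, hγ' i⟩ f) (perPoly_natDegree_le w _ f) τ
    rw [LinearMap.comp_apply, evH_apply, ← h]
    have h2 : (fun z : ℍ => (perPoly w ⟨γ' i, hγ' i⟩ f).eval (z : ℂ)) = perFun w (γ' i) f :=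
      evH_perPoly w ⟨γ' i, hγ' i⟩ f
    rw [h2]
    simp only [mul_zero, sub_zero, Pi.smul_apply, smul_eq_mul]
    rw [hdet]
    push_cast
    rfl
  rw [hEq]
  exact InLat.sum _ _ fun i _ => (hΛ _).polyAct w _ _ _ _

/-- Hecke stability for `T_p`, `p ∤ N`. -/
theorem inLat_perPoly_comp_heckeT
    (Λ : Submodule ℤ (Module.Dual ℂ (CuspForm (CongruenceSubgroup.Gamma0 N) ((w : ℤ) + 2))))
    (hΛ : ∀ γ : CongruenceSubgroup.Gamma0 N, InLat Λ (perPoly w γ))
    {p : ℕ} (hp : p.Prime) (hpN : ¬ p ∣ N) (γ : CongruenceSubgroup.Gamma0 N) :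
    InLat Λ (perPoly w γ ∘ₗ CuspForm.heckeTLin ((w : ℤ) + 2) hp hpN) := by
  obtain ⟨ι, hι, γ', a, b, d, α, hγ', hα, hrel⟩ := heckeT_period hp hpN (γ : SL(2, ℤ)) γ.2
  refine inLat_of_period_relation w Λ hΛ _ γ γ' a b d α p hγ' hα fun f => ?_
  rw [perFun_apply, prim_heckeT, ModularForm.SL_smul_slash, ← smul_sub,
    hrel (-(w : ℤ)) (prim w f)]
  rfl

/-- Hecke stability for `U_p`, `p ∣ N`. -/
theorem inLat_perPoly_comp_heckeU
    (Λ : Submodule ℤ (Module.Dual ℂ (CuspForm (CongruenceSubgroup.Gamma0 N) ((w : ℤ) + 2))))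
    (hΛ : ∀ γ : CongruenceSubgroup.Gamma0 N, InLat Λ (perPoly w γ))
    {p : ℕ} (hpN : p ∣ N) (γ : CongruenceSubgroup.Gamma0 N) :
    InLat Λ (perPoly w γ ∘ₗ CuspForm.heckeULin ((w : ℤ) + 2) hpN) := by
  have hp0 : p ≠ 0 := by
    rintro rfl
    exact NeZero.ne N (Nat.eq_zero_of_zero_dvd hpN)
  obtain ⟨ι, hι, γ', a, b, d, α, hγ', hα, hrel⟩ := heckeU_period hp0 hpN (γ : SL(2, ℤ)) γ.2
  refine inLat_of_period_relation w Λ hΛ _ γ γ' a b d α p hγ' hα fun f => ?_
  rw [perFun_apply, prim_heckeU, ModularForm.SL_smul_slash, ← smul_sub,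
    hrel (-(w : ℤ)) (prim w f)]
  rfl

end Fermat.Agent.S22ES
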