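import Mathlib
import Fermat.Agent.S22ES.BolH
import Fermat.Agent.S22ES.PolyLemma
import Fermat.Agent.S22ES.CuspFacts

/-!
# An Eichler integral which is invariant under `Γ₀(N)` comes from the zero cusp form

If `F` is holomorphic on `ℍ`, `D^(w+1) F = f` is a cusp form of weight `w + 2` on `Γ₀(N)`,
and `F ∣[-w] γ = F` for all `γ ∈ Γ₀(N)`, then `F` is a modular form of weight `-w`, hence
constant, hence `f = 0`.
-/

set_option autoImplicit false

noncomputable section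

open UpperHalfPlane hiding I
open Complex Filter Function Matrix.SpecialLinearGroup Polynomial
open scoped Topology Manifold Real MatrixGroups ModularForm

namespace Fermat.Agent.S22ES

variable {N : ℕ}

/-- The slash invariant form attached to an invariant function. -/
def invSIF (k : ℤ) (F : ℍ → ℂ)
    (hinv : ∀ γ ∈ CongruenceSubgroup.Gamma0 N, F ∣[k] (γ : SL(2, ℤ)) = F) :
    SlashInvariantForm (CongruenceSubgroup.Gamma0 N : Subgroup (GL (Fin 2) ℝ)) k where
  toFun := F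
  slash_action_eq' := by
    rintro γ ⟨γ', hγ', rfl⟩
    exact hinv γ' hγ'

theorem coe_invSIF (k : ℤ) (F : ℍ → ℂ)
    (hinv : ∀ γ ∈ CongruenceSubgroup.Gamma0 N, F ∣[k] (γ : SL(2, ℤ)) = F) :
    (⇑(invSIF k F hinv) : ℍ → ℂ) = F := rfl

/-- Translates of an invariant function are periodic. -/
theorem exists_period_slash_inv (N : ℕ) [NeZero N] :
    ∃ M : ℕ, 0 < M ∧ ∀ (k : ℤ) (F : ℍ → ℂ)
      (_ : ∀ γ ∈ CongruenceSubgroup.Gamma0 N, F ∣[k] (γ : SL(2, ℤ)) = F) (σ : SL(2, ℤ)),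
      Function.Periodic ((F ∣[k] σ) ∘ ofComplex) (M : ℂ) := by
  obtain ⟨M, hM, hper⟩ := Subgroup.IsArithmetic.exists_nat_mem_strictPeriods_conj
    (CongruenceSubgroup.Gamma0 N : Subgroup (GL (Fin 2) ℝ))
  refine ⟨M, hM, fun k F hinv σ => ?_⟩
  have h1 := hper σ⁻¹
  have h2 := SlashInvariantFormClass.periodic_comp_ofComplex
    (SlashInvariantForm.translate (invSIF k F hinv) (mapGL ℝ σ)) (h := (M : ℝ)) (by simpa using h1)
  have h3 : (⇑(SlashInvariantForm.translate (invSIF k F hinv) (mapGL ℝ σ)) : ℍ → ℂ)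
      = F ∣[k] σ := rfl
  rw [h3] at h2
  simpa using h2

/-- A holomorphic `Γ₀(N)`-invariant function of weight `k ≤ 0`, all of whose translates are
bounded at `i∞`, is constant. -/
theorem exists_const_of_invariant_of_bdd [NeZero N] (k : ℤ) (hk : k ≤ 0) (F : ℍ → ℂ)
    (hF : MDiff F)
    (hinv : ∀ γ ∈ CongruenceSubgroup.Gamma0 N, F ∣[k] (γ : SL(2, ℤ)) = F)
    (hbdd : ∀ σ : SL(2, ℤ), IsBoundedAtImInfty (F ∣[k] σ)) :
    ∃ c : ℂ, F = Function.const ℍ c := by
  let G : ModularForm (CongruenceSubgroup.Gamma0 N : Subgroup (GL (Fin 2) ℝ)) k :=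
    { toSlashInvariantForm := invSIF k F hinv
      holo' := hF
      bdd_at_cusps' := fun {c} hc => by
        have hc' : IsCusp c 𝒮ℒ :=
          (Subgroup.IsArithmetic.isCusp_iff_isCusp_SL2Z _).mp hc
        rw [OnePoint.isBoundedAt_iff_forall_SL2Z hc']
        intro σ _
        exact hbdd σ }
  have hG : (⇑G : ℍ → ℂ) = F := rfl
  rcases hk.lt_or_eq with hk | rfl
  · have := ModularForm.isZero_of_neg_weight hk G
    refine ⟨0, ?_⟩
    rw [← hG, this]
    rfl
  · obtain ⟨c, hc⟩ := ModularForm.eq_const_of_weight_zero G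
    exact ⟨c, by rw [← hG, hc]⟩

theorem eq_zero_of_invariant [NeZero N] (w : ℕ)
    (f : CuspForm (CongruenceSubgroup.Gamma0 N) ((w : ℤ) + 2)) (F : ℍ → ℂ) (hF : MDiff F)
    (hd : ∀ z : ℍ, iteratedDeriv (w + 1) (F ∘ ofComplex) z = f z)
    (hinv : ∀ γ ∈ CongruenceSubgroup.Gamma0 N, F ∣[-(w : ℤ)] (γ : SL(2, ℤ)) = F) : f = 0 := by
  have hW : IsOpen {z : ℂ | 0 < z.im} := polyLemma_isOpen_imPos
  obtain ⟨M₁, hM₁, hper₁⟩ := exists_period_slash N
  obtain ⟨M₂, hM₂, hper₂⟩ := exists_period_slash_inv N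
  have hfun : (fun τ : ℍ => iteratedDeriv (w + 1) (F ∘ ofComplex) τ) = ⇑f := funext hd
  -- boundedness of all translates
  have hbdd : ∀ σ : SL(2, ℤ), IsBoundedAtImInfty (F ∣[-(w : ℤ)] σ) := by
    intro σ
    have hg : IsPerCusp (M₁ : ℝ) (⇑f ∣[(w : ℤ) + 2] σ) := hper₁ _ f σ
    obtain ⟨G, hG, hGd⟩ := exists_iterPrim (by exact_mod_cast hM₁ : (0 : ℝ) < M₁) (w + 1) hg
    have hFσ : MDiff (F ∣[-(w : ℤ)] σ) := hF.slash _ _
    have hFσd : DifferentiableOn ℂ ((F ∣[-(w : ℤ)] σ) ∘ ofComplex) {z : ℂ | 0 < z.im} :=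
      bolH_differentiableOn hFσ
    have hGd' : DifferentiableOn ℂ (G ∘ ofComplex) {z : ℂ | 0 < z.im} :=
      bolH_differentiableOn hG.mdiff
    have hH : MDiff ((F ∣[-(w : ℤ)] σ) - G) := hFσ.sub hG.mdiff
    have hH0 : ∀ z : ℍ, iteratedDeriv (w + 1) (((F ∣[-(w : ℤ)] σ) - G) ∘ ofComplex) z = 0 := by
      intro z
      have e : (((F ∣[-(w : ℤ)] σ) - G) ∘ ofComplex)
          = ((F ∣[-(w : ℤ)] σ) ∘ ofComplex) - (G ∘ ofComplex) := rfl
      rw [e, iteratedDeriv_sub
        ((hFσd.contDiffOn hW).contDiffAt (hW.mem_nhds z.im_pos))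
        ((hGd'.contDiffOn hW).contDiffAt (hW.mem_nhds z.im_pos)),
        iteratedDeriv_slash_SL w F hF σ z, hGd z, hfun, sub_self]
    obtain ⟨q, -, hq⟩ := exists_poly_of_iteratedDeriv_eq_zero w _ hH hH0
    -- periodicity
    have hp1 : Function.Periodic ((F ∣[-(w : ℤ)] σ) ∘ ofComplex) ((M₁ : ℂ) * (M₂ : ℂ)) := by
      have := (hper₂ (-(w : ℤ)) F hinv σ).nat_mul M₁
      simpa using this
    have hp2 : Function.Periodic (G ∘ ofComplex) ((M₁ : ℂ) * (M₂ : ℂ)) := by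
      have := hG.per.nat_mul M₂
      simpa [mul_comm] using this
    have hMne : ((M₁ : ℂ) * (M₂ : ℂ)) ≠ 0 := by
      have h1 : (M₁ : ℂ) ≠ 0 := by exact_mod_cast hM₁.ne'
      have h2 : (M₂ : ℂ) ≠ 0 := by exact_mod_cast hM₂.ne'
      exact mul_ne_zero h1 h2
    obtain ⟨c, hc⟩ := polynomial_const_of_periodic q _ hMne (fun z hz => by
      have hz' : 0 < (z + (M₁ : ℂ) * (M₂ : ℂ)).im := by
        simpa using hz
      have h1 := hq ⟨z, hz⟩
      have h2 := hq ⟨z + (M₁ : ℂ) * (M₂ : ℂ), hz'⟩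
      rw [← h1, ← h2]
      have e1 := hp1 z
      have e2 := hp2 z
      simp only [Function.comp_apply, ofComplex_apply_of_im_pos hz,
        ofComplex_apply_of_im_pos hz'] at e1 e2
      simp only [Pi.sub_apply]
      rw [e1, e2])
    have hsum : (F ∣[-(w : ℤ)] σ) = G + Function.const ℍ c := by
      funext z
      have := hq z
      rw [hc, eval_C] at this
      simp only [Pi.sub_apply] at this
      simp only [Pi.add_apply, Function.const_apply]
      rw [← this]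
      ring
    rw [hsum]
    exact hG.zero.isBoundedAtImInfty.add (Filter.const_boundedAtFilter _ c)
  obtain ⟨c, hc⟩ := exists_const_of_invariant_of_bdd (-(w : ℤ)) (by simp) F hF hinv hbdd
  ext z
  rw [← hd z, hc]
  have : (Function.const ℍ c ∘ ofComplex) = fun _ : ℂ => c := rfl
  rw [this, iteratedDeriv_const]
  simp

end Fermat.Agent.S22ES
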