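/-
S22ES helper library (helper7): a Z-algebra of complex endomorphisms generated by operators
that preserve (the image of) a finitely generated lattice spanning the space is a finite Z-module.
-/
import Mathlib

set_option autoImplicit false

namespace Fermat.Agent.S22ES

section

variable {V : Type*} [AddCommGroup V] [Module ℂ V]

/-- The subalgebra of `End_ℂ V` of operators preserving a `ℤ`-submodule `P`. -/
def stabSubalgebra (P : Submodule ℤ V) : Subalgebra ℤ (Module.End ℂ V) where
  carrier := {a | ∀ x ∈ P, a x ∈ P}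
  mul_mem' := fun {a b} ha hb x hx => ha _ (hb x hx)
  one_mem' := fun x hx => hx
  add_mem' := fun {a b} ha hb x hx => P.add_mem (ha x hx) (hb x hx)
  zero_mem' := fun x _ => P.zero_mem
  algebraMap_mem' := fun n x hx => by
    have : (algebraMap ℤ (Module.End ℂ V) n) x = n • x := by
      rw [Algebra.algebraMap_eq_smul_one, LinearMap.smul_apply, Module.End.one_apply]
    rw [this]
    exact P.smul_mem n hx

lemma mem_stabSubalgebra {P : Submodule ℤ V} {a : Module.End ℂ V} :
    a ∈ stabSubalgebra P ↔ ∀ x ∈ P, a x ∈ P := Iff.rfl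

/-- restriction of a stabilising operator to the lattice. -/
def restrictStab (P : Submodule ℤ V) : stabSubalgebra P →ₗ[ℤ] Module.End ℤ P where
  toFun a := LinearMap.restrict ((a : Module.End ℂ V).restrictScalars ℤ) a.2
  map_add' _ _ := LinearMap.ext fun _ => Subtype.ext rfl
  map_smul' _ _ := LinearMap.ext fun _ => Subtype.ext rfl

lemma restrictStab_injective (P : Submodule ℤ V)
    (hspan : Submodule.span ℂ (P : Set V) = ⊤) : Function.Injective (restrictStab P) := by
  rw [← LinearMap.ker_eq_bot, LinearMap.ker_eq_bot']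
  intro a ha
  apply Subtype.ext
  apply LinearMap.ext_on hspan
  intro x hx
  have h1 : ((restrictStab P a) ⟨x, hx⟩ : V) = (a : Module.End ℂ V) x := rfl
  rw [← h1, ha]
  rfl

theorem finite_stabSubalgebra (P : Submodule ℤ V) [Module.Finite ℤ P]
    (hspan : Submodule.span ℂ (P : Set V) = ⊤) : Module.Finite ℤ (stabSubalgebra P) := by
  have : IsAddTorsionFree V := .of_isTorsionFree ℂ _
  have : Module.Free ℤ P := Module.free_of_finite_type_torsion_free'
  exact Module.Finite.of_injective (restrictStab P) (restrictStab_injective P hspan)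

theorem finite_adjoin_of_lattice {ι L : Type*} [AddCommGroup L] [Module.Finite ℤ L]
    (t : ι → Module.End ℂ V) (tL : ι → Module.End ℤ L) (D : L →ₗ[ℤ] V)
    (hD : ∀ i x, D (tL i x) = t i (D x))
    (hspan : Submodule.span ℂ (Set.range D) = ⊤) :
    Module.Finite ℤ (Algebra.adjoin ℤ (Set.range t)) := by
  set P : Submodule ℤ V := LinearMap.range D with hP
  have : Module.Finite ℤ P := Module.Finite.range D
  have hspanP : Submodule.span ℂ (P : Set V) = ⊤ := by
    rw [hP]; exact hspan
  have := finite_stabSubalgebra P hspanP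
  have hle : Algebra.adjoin ℤ (Set.range t) ≤ stabSubalgebra P := by
    apply Algebra.adjoin_le
    rintro _ ⟨i, rfl⟩ x ⟨y, rfl⟩
    exact ⟨tL i y, hD i y⟩
  exact Module.Finite.of_injective (Subalgebra.inclusion hle).toLinearMap
    (Subalgebra.inclusion_injective hle)

end

section

variable {V : Type*} [AddCommGroup V] [Module ℂ V]

/-- The subalgebra of `End_ℂ V` of operators whose transpose preserves a `ℤ`-submodule `Λ` of the
dual space. -/
def dualStabSubalgebra (Λ : Submodule ℤ (Module.Dual ℂ V)) : Subalgebra ℤ (Module.End ℂ V) where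
  carrier := {T | ∀ l ∈ Λ, l ∘ₗ T ∈ Λ}
  mul_mem' := fun {a b} ha hb l hl => by
    have := hb _ (ha l hl)
    rwa [LinearMap.comp_assoc] at this
  one_mem' := fun l hl => by
    have : l ∘ₗ (1 : Module.End ℂ V) = l := LinearMap.ext fun _ => rfl
    rwa [this]
  add_mem' := fun {a b} ha hb l hl => by
    rw [LinearMap.comp_add]
    exact Λ.add_mem (ha l hl) (hb l hl)
  zero_mem' := fun l _ => by
    rw [LinearMap.comp_zero]
    exact Λ.zero_mem
  algebraMap_mem' := fun n l hl => by
    have : l ∘ₗ (algebraMap ℤ (Module.End ℂ V) n) = n • l := by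
      ext x
      rw [Algebra.algebraMap_eq_smul_one]
      simp
    rw [this]
    exact Λ.smul_mem n hl

lemma mem_dualStabSubalgebra {Λ : Submodule ℤ (Module.Dual ℂ V)} {T : Module.End ℂ V} :
    T ∈ dualStabSubalgebra Λ ↔ ∀ l ∈ Λ, l ∘ₗ T ∈ Λ := Iff.rfl

/-- transpose of a stabilising operator, restricted to the lattice. -/
def dualRestrictStab (Λ : Submodule ℤ (Module.Dual ℂ V)) :
    dualStabSubalgebra Λ →ₗ[ℤ] Module.End ℤ Λ where
  toFun T :=
    { toFun := fun l => ⟨(l : Module.Dual ℂ V) ∘ₗ (T : Module.End ℂ V), T.2 _ l.2⟩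
      map_add' := fun _ _ => Subtype.ext (LinearMap.add_comp _ _ _)
      map_smul' := fun _ _ => Subtype.ext (LinearMap.ext fun _ => rfl) }
  map_add' _ _ := LinearMap.ext fun _ => Subtype.ext (LinearMap.comp_add _ _ _)
  map_smul' n T := LinearMap.ext fun l => Subtype.ext (LinearMap.ext fun x => by
    show (l : Module.Dual ℂ V) ((n • (T : Module.End ℂ V)) x) = n • (l : Module.Dual ℂ V) (T.1 x)
    rw [LinearMap.smul_apply, map_zsmul])

lemma dualRestrictStab_injective (Λ : Submodule ℤ (Module.Dual ℂ V))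
    (hsep : ∀ v : V, (∀ l ∈ Λ, l v = 0) → v = 0) :
    Function.Injective (dualRestrictStab Λ) := by
  rw [← LinearMap.ker_eq_bot, LinearMap.ker_eq_bot']
  intro T hT
  apply Subtype.ext
  apply LinearMap.ext
  intro v
  apply hsep
  intro l hl
  have h1 : ((dualRestrictStab Λ T) ⟨l, hl⟩ : Module.Dual ℂ V) = l ∘ₗ (T : Module.End ℂ V) := rfl
  have h2 : l ∘ₗ (T : Module.End ℂ V) = 0 := by
    rw [← h1, hT]; rfl
  have := congrArg (fun φ : Module.Dual ℂ V => φ v) h2
  simpa using this

theorem finite_dualStabSubalgebra (Λ : Submodule ℤ (Module.Dual ℂ V)) (hfg : Λ.FG)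
    (hsep : ∀ v : V, (∀ l ∈ Λ, l v = 0) → v = 0) :
    Module.Finite ℤ (dualStabSubalgebra Λ) := by
  have : Module.Finite ℤ Λ := Module.Finite.iff_fg.mpr hfg
  have : IsAddTorsionFree (Module.Dual ℂ V) := .of_isTorsionFree ℂ _
  have : Module.Free ℤ Λ := Module.free_of_finite_type_torsion_free'
  exact Module.Finite.of_injective (dualRestrictStab Λ) (dualRestrictStab_injective Λ hsep)

/-- (P5') A set of operators whose transposes preserve a finitely generated separating lattice
of functionals generates a finite `ℤ`-algebra. -/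
theorem finite_adjoin_of_dual_lattice (Λ : Submodule ℤ (Module.Dual ℂ V)) (hfg : Λ.FG)
    (hsep : ∀ v : V, (∀ l ∈ Λ, l v = 0) → v = 0)
    (s : Set (Module.End ℂ V)) (hs : ∀ T ∈ s, ∀ l ∈ Λ, l ∘ₗ T ∈ Λ) :
    Module.Finite ℤ (Algebra.adjoin ℤ s) := by
  have := finite_dualStabSubalgebra Λ hfg hsep
  have hle : Algebra.adjoin ℤ s ≤ dualStabSubalgebra Λ := Algebra.adjoin_le hs
  exact Module.Finite.of_injective (Subalgebra.inclusion hle).toLinearMap
    (Subalgebra.inclusion_injective hle)

end


end Fermat.Agent.S22ES
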