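import Mathlib
import Fermat.Prelude.Def_CuspForm_HeckeAlgebra
import Fermat.Agent.S22ES.Hecke
import Fermat.Agent.S22ES.Invariant
import Fermat.Agent.S22ES.Lattice

set_option autoImplicit false

/-!
# Finiteness of the Hecke algebra over `ℤ` via the Eichler–Shimura period lattice
-/

noncomputable section

open UpperHalfPlane hiding I
open Complex Filter Function Polynomial
open scoped Topology Manifold MatrixGroups ModularForm

namespace Fermat.Agent.S22ES

variable {N : ℕ} [NeZero N] (w : ℕ)

/-- The period lattice separates cusp forms. -/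
theorem perLattice_sep (gens : Finset (CongruenceSubgroup.Gamma0 N))
    (hgens : Subgroup.closure (gens : Set (CongruenceSubgroup.Gamma0 N)) = ⊤)
    (f : CuspForm (CongruenceSubgroup.Gamma0 N) ((w : ℤ) + 2))
    (h : ∀ l ∈ perLattice w gens, l f = 0) : f = 0 := by
  apply eq_zero_of_invariant w f (prim w f) (prim_mdiff w f) (prim_deriv w f)
  intro γ hγ
  have h1 : perPoly w ⟨γ, hγ⟩ f = 0 := by
    ext j
    have := h _ (inLat_perPoly w gens hgens ⟨γ, hγ⟩ j)
    simpa using this
  have h2 := evH_perPoly w ⟨γ, hγ⟩ f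
  rw [h1, map_zero] at h2
  have h3 : prim w f ∣[-(w : ℤ)] γ - prim w f = 0 := h2.symm
  exact sub_eq_zero.mp h3

/-- The period lattice is stable under the Hecke generators. -/
theorem perLattice_stable (S : Set ℕ) (gens : Finset (CongruenceSubgroup.Gamma0 N))
    (hgens : Subgroup.closure (gens : Set (CongruenceSubgroup.Gamma0 N)) = ⊤)
    (T : Module.End ℂ (CuspForm (CongruenceSubgroup.Gamma0 N) ((w : ℤ) + 2)))
    (hT : T ∈ CuspForm.heckeGenerators N ((w : ℤ) + 2) S)
    (l : Module.Dual ℂ (CuspForm (CongruenceSubgroup.Gamma0 N) ((w : ℤ) + 2)))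
    (hl : l ∈ perLattice w gens) : l ∘ₗ T ∈ perLattice w gens := by
  have hΛ := inLat_perPoly w gens hgens
  have hgenT : ∀ γ, InLat (perLattice w gens) (perPoly w γ ∘ₗ T) := by
    rcases hT with ⟨ℓ, hℓ, hℓN, -, rfl⟩ | ⟨q, hqN, -, -, rfl⟩
    · exact fun γ => inLat_perPoly_comp_heckeT w _ hΛ hℓ hℓN γ
    · exact fun γ => inLat_perPoly_comp_heckeU w _ hΛ hqN γ
  unfold perLattice at hl
  induction hl using Submodule.span_induction with
  | mem x hx =>
    obtain ⟨⟨γ, j⟩, -, rfl⟩ := hx
    exact hgenT γ j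
  | zero =>
    rw [LinearMap.zero_comp]
    exact Submodule.zero_mem _
  | add x y _ _ hx hy =>
    rw [LinearMap.add_comp]
    exact Submodule.add_mem _ hx hy
  | smul n x _ hx =>
    rw [LinearMap.smul_comp]
    exact Submodule.smul_mem _ n hx

theorem moduleFinite_heckeAlgebra_of_weight (N : ℕ) [NeZero N] (w : ℕ) (S : Set ℕ) :
    Module.Finite ℤ (CuspForm.heckeAlgebra N ((w : ℤ) + 2) S) := by
  obtain ⟨gens, hgens⟩ := (fg_Gamma0 N).out
  exact finite_adjoin_of_dual_lattice (perLattice w gens) (perLattice_fg w gens)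
    (perLattice_sep w gens hgens) (CuspForm.heckeGenerators N ((w : ℤ) + 2) S)
    (fun T hT l hl => perLattice_stable w S gens hgens T hT l hl)

theorem moduleFinite_heckeAlgebra (N : ℕ) [NeZero N] (k : ℤ) (S : Set ℕ) :
    Module.Finite ℤ (CuspForm.heckeAlgebra N k S) := by
  by_cases hk : 2 ≤ k
  · obtain ⟨w, rfl⟩ : ∃ w : ℕ, k = (w : ℤ) + 2 := ⟨(k - 2).toNat, by omega⟩
    exact moduleFinite_heckeAlgebra_of_weight N w S
  · have hV : ∀ f : CuspForm (CongruenceSubgroup.Gamma0 N) k, f = 0 := by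
      intro f
      rcases le_or_gt k 0 with h0 | h0
      · exact cuspForm_eq_zero_of_nonpos h0 f
      · have h1 : k = 1 := by omega
        subst h1
        exact cuspForm_eq_zero_of_odd odd_one f
    haveI : Subsingleton (CuspForm (CongruenceSubgroup.Gamma0 N) k) :=
      ⟨fun a b => by rw [hV a, hV b]⟩
    haveI : Subsingleton (Module.End ℂ (CuspForm (CongruenceSubgroup.Gamma0 N) k)) :=
      ⟨fun a b => LinearMap.ext fun x => Subsingleton.elim _ _⟩
    haveI : Subsingleton (CuspForm.heckeAlgebra N k S) :=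
      ⟨fun a b => Subtype.ext (Subsingleton.elim _ _)⟩
    exact Module.Finite.of_finite

end Fermat.Agent.S22ES
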