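/-
S22ES helper library (helper7): polynomial functions of degree ≤ w on the upper half plane with
coefficients in a Z-submodule U of ℂ; stability under the weight -w action of integral matrices.
-/
import Mathlib

set_option autoImplicit false

namespace Fermat.Agent.S22ES

open UpperHalfPlane Polynomial

/-- The polynomial function `τ ↦ ∑ j ≤ w, u j * τ ^ j` on the upper half plane. -/
noncomputable def polyFun (w : ℕ) (u : Fin (w + 1) → ℂ) : ℍ → ℂ :=
  fun τ => ∑ j : Fin (w + 1), u j * (τ : ℂ) ^ (j : ℕ)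

lemma polyFun_apply (w : ℕ) (u : Fin (w + 1) → ℂ) (τ : ℍ) :
    polyFun w u τ = ∑ j : Fin (w + 1), u j * (τ : ℂ) ^ (j : ℕ) := rfl

lemma polyFun_add (w : ℕ) (u v : Fin (w + 1) → ℂ) :
    polyFun w (u + v) = polyFun w u + polyFun w v := by
  funext τ
  simp only [polyFun_apply, Pi.add_apply, add_mul, Finset.sum_add_distrib]

lemma polyFun_zsmul (w : ℕ) (n : ℤ) (u : Fin (w + 1) → ℂ) :
    polyFun w (n • u) = n • polyFun w u := by
  funext τ
  rw [Pi.smul_apply, polyFun_apply, polyFun_apply, Finset.smul_sum]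
  refine Finset.sum_congr rfl fun j _ => ?_
  rw [Pi.smul_apply, smul_mul_assoc]

/-- `polyFun` as a `ℤ`-linear map. -/
noncomputable def polyFunₗ (w : ℕ) : (Fin (w + 1) → ℂ) →ₗ[ℤ] (ℍ → ℂ) where
  toFun := polyFun w
  map_add' := polyFun_add w
  map_smul' n u := polyFun_zsmul w n u

/-- Polynomial functions of degree `≤ w` with coefficients in the `ℤ`-submodule `U` of `ℂ`. -/
noncomputable def polyU (w : ℕ) (U : Submodule ℤ ℂ) : Submodule ℤ (ℍ → ℂ) :=
  (Submodule.pi Set.univ (fun _ : Fin (w + 1) => U)).map (polyFunₗ w)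

lemma mem_polyU {w : ℕ} {U : Submodule ℤ ℂ} {P : ℍ → ℂ} :
    P ∈ polyU w U ↔ ∃ u : Fin (w + 1) → ℂ, (∀ j, u j ∈ U) ∧ polyFun w u = P := by
  simp only [polyU, Submodule.mem_map, Submodule.mem_pi, Set.mem_univ, forall_true_left]
  rfl

instance polyU_finite (w : ℕ) (U : Submodule ℤ ℂ) [Module.Finite ℤ U] :
    Module.Finite ℤ (polyU w U) := by
  have h1 : Module.Finite ℤ (Fin (w + 1) → U) := inferInstance
  -- the linear map (Fin (w+1) → U) → polyU
  let f : (Fin (w + 1) → U) →ₗ[ℤ] polyU w U :=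
    { toFun := fun u => ⟨polyFun w (fun j => (u j : ℂ)),
        mem_polyU.mpr ⟨fun j => (u j : ℂ), fun j => (u j).2, rfl⟩⟩
      map_add' := fun u v => Subtype.ext (polyFun_add w _ _)
      map_smul' := fun n u => Subtype.ext (polyFun_zsmul w n (fun j => (u j : ℂ))) }
  refine Module.Finite.of_surjective f ?_
  rintro ⟨P, hP⟩
  obtain ⟨u, hu, rfl⟩ := mem_polyU.mp hP
  exact ⟨fun j => ⟨u j, hu j⟩, rfl⟩

/-- auxiliary integer polynomial `(aX+b)^j (cX+d)^(w-j)`. -/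
noncomputable def auxPoly (a b c d : ℤ) (w j : ℕ) : ℤ[X] :=
  (C a * X + C b) ^ j * (C c * X + C d) ^ (w - j)

lemma natDegree_auxPoly_lt (a b c d : ℤ) {w j : ℕ} (hj : j ≤ w) :
    (auxPoly a b c d w j).natDegree < w + 1 := by
  have h1 : (C a * X + C b : ℤ[X]).natDegree ≤ 1 := natDegree_linear_le
  have h2 : (C c * X + C d : ℤ[X]).natDegree ≤ 1 := natDegree_linear_le
  have h3 : ((C a * X + C b : ℤ[X]) ^ j).natDegree ≤ j :=
    natDegree_pow_le.trans (by simpa using Nat.mul_le_mul_left j h1)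
  have h4 : ((C c * X + C d : ℤ[X]) ^ (w - j)).natDegree ≤ w - j :=
    natDegree_pow_le.trans (by simpa using Nat.mul_le_mul_left (w - j) h2)
  have h5 := natDegree_mul_le (p := (C a * X + C b : ℤ[X]) ^ j)
    (q := (C c * X + C d : ℤ[X]) ^ (w - j))
  rw [auxPoly]
  omega

lemma aeval_auxPoly (a b c d : ℤ) (w j : ℕ) (z : ℂ) :
    aeval z (auxPoly a b c d w j) = ((a : ℂ) * z + b) ^ j * ((c : ℂ) * z + d) ^ (w - j) := by
  simp [auxPoly]

/-- The weight `-w` action of an integral matrix of positive determinant preserves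
polynomial functions of degree `≤ w` with coefficients in `U`. -/
theorem eSlash_mem_polyU (w : ℕ) (U : Submodule ℤ ℂ) (g : GL (Fin 2) ℝ)
    (hdet : 0 < (Matrix.GeneralLinearGroup.det g : ℝ))
    (hint : ∀ i j, ∃ n : ℤ, (g i j : ℝ) = n)
    {P : ℍ → ℂ} (hP : P ∈ polyU w U) :
    (fun τ : ℍ => denom g τ ^ w * P (g • τ)) ∈ polyU w U := by
  obtain ⟨u, hu, rfl⟩ := mem_polyU.mp hP
  obtain ⟨a, ha⟩ := hint 0 0
  obtain ⟨b, hb⟩ := hint 0 1
  obtain ⟨c, hc⟩ := hint 1 0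
  obtain ⟨d, hd⟩ := hint 1 1
  refine mem_polyU.mpr ⟨fun i => ∑ j : Fin (w + 1), (auxPoly a b c d w j).coeff i • u j,
    fun i => Submodule.sum_mem _ fun j _ => U.smul_mem _ (hu j), ?_⟩
  funext τ
  have hden : denom g τ = (c : ℂ) * τ + d := by
    change (g 1 0 : ℂ) * (τ : ℂ) + (g 1 1 : ℂ) = _
    rw [hc, hd]; push_cast; rfl
  have hnum : num g τ = (a : ℂ) * τ + b := by
    change (g 0 0 : ℂ) * (τ : ℂ) + (g 0 1 : ℂ) = _
    rw [ha, hb]; push_cast; rfl
  have hne : (c : ℂ) * τ + d ≠ 0 := hden ▸ denom_ne_zero g τ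
  rw [polyFun_apply, polyFun_apply, Finset.mul_sum]
  have key : ∀ j : Fin (w + 1),
      denom g τ ^ w * (u j * ((g • τ : ℍ) : ℂ) ^ (j : ℕ)) =
        ∑ i : Fin (w + 1), ((auxPoly a b c d w j).coeff i • u j) * (τ : ℂ) ^ (i : ℕ) := by
    intro j
    have hj : (j : ℕ) ≤ w := Nat.lt_succ_iff.mp j.2
    rw [coe_smul_of_det_pos hdet, hden, hnum, div_pow]
    have h1 : ((c : ℂ) * τ + d) ^ w =
        ((c : ℂ) * τ + d) ^ (j : ℕ) * ((c : ℂ) * τ + d) ^ (w - j) := by
      rw [← pow_add, Nat.add_sub_cancel' hj]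
    have h2 : ((c : ℂ) * τ + d) ^ w * (u j * (((a : ℂ) * τ + b) ^ (j : ℕ) /
        ((c : ℂ) * τ + d) ^ (j : ℕ))) =
        u j * (((a : ℂ) * τ + b) ^ (j : ℕ) * ((c : ℂ) * τ + d) ^ (w - j)) := by
      rw [h1]
      field_simp
    rw [h2, ← aeval_auxPoly, aeval_eq_sum_range' (natDegree_auxPoly_lt a b c d hj),
      Finset.mul_sum, Finset.sum_range]
    refine Finset.sum_congr rfl fun i _ => ?_
    rw [zsmul_eq_mul, zsmul_eq_mul]
    ring
  rw [Finset.sum_congr rfl fun j _ => key j, Finset.sum_comm]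
  refine Finset.sum_congr rfl fun i _ => ?_
  rw [Finset.sum_mul]

end Fermat.Agent.S22ES
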