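/-
S22ES helper library (helper7): reduction of S22 to even weights `k = w + 2 ≥ 2` and `S = ∅`.
-/
import Mathlib
import Fermat.Prelude.Def_CuspForm_HeckeAlgebra
import Fermat.Agent.S22ES.CuspFacts

set_option autoImplicit false

namespace Fermat.Agent.S22ES

open scoped MatrixGroups ModularForm

/-- (T1) If the space of cusp forms is trivial, so is its Hecke algebra. -/
theorem finite_heckeAlgebra_of_subsingleton (N : ℕ) [NeZero N] (k : ℤ) (S : Set ℕ)
    [Subsingleton (CuspForm (CongruenceSubgroup.Gamma0 N) k)] :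
    Module.Finite ℤ (CuspForm.heckeAlgebra N k S) := by
  have h1 : Subsingleton (Module.End ℂ (CuspForm (CongruenceSubgroup.Gamma0 N) k)) :=
    ⟨fun a b => LinearMap.ext fun x => Subsingleton.elim _ _⟩
  have h2 : Subsingleton (CuspForm.heckeAlgebra N k S) :=
    ⟨fun a b => Subtype.ext (Subsingleton.elim _ _)⟩
  exact Module.Finite.of_finite

/-- Shrinking the set of excluded primes: finiteness for `S = ∅` implies finiteness for all `S`. -/
theorem finite_heckeAlgebra_of_empty (N : ℕ) [NeZero N] (k : ℤ) (S : Set ℕ)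
    (h : Module.Finite ℤ (CuspForm.heckeAlgebra N k ∅)) :
    Module.Finite ℤ (CuspForm.heckeAlgebra N k S) := by
  have hle : CuspForm.heckeAlgebra N k S ≤ CuspForm.heckeAlgebra N k ∅ :=
    CuspForm.heckeAlgebra_mono (Set.empty_subset S)
  exact Module.Finite.of_injective (Subalgebra.inclusion hle).toLinearMap
    (Subalgebra.inclusion_injective hle)

/-- (T2) S22 follows from the case of even weight `k = w + 2` and `S = ∅`. -/
theorem finite_heckeAlgebra_of_main (N : ℕ) [NeZero N]
    (h : ∀ w : ℕ, Even w → Module.Finite ℤ (CuspForm.heckeAlgebra N ((w : ℤ) + 2) ∅))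
    (k : ℤ) (S : Set ℕ) : Module.Finite ℤ (CuspForm.heckeAlgebra N k S) := by
  by_cases hk : k ≤ 0
  · have : Subsingleton (CuspForm (CongruenceSubgroup.Gamma0 N) k) :=
      ⟨fun a b => by rw [cuspForm_eq_zero_of_nonpos hk a, cuspForm_eq_zero_of_nonpos hk b]⟩
    exact finite_heckeAlgebra_of_subsingleton N k S
  by_cases hodd : Odd k
  · have : Subsingleton (CuspForm (CongruenceSubgroup.Gamma0 N) k) :=
      ⟨fun a b => by rw [cuspForm_eq_zero_of_odd hodd a, cuspForm_eq_zero_of_odd hodd b]⟩
    exact finite_heckeAlgebra_of_subsingleton N k S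
  have hev : Even k := Int.not_odd_iff_even.mp hodd
  obtain ⟨m, hm⟩ := hev
  have hm1 : 1 ≤ m := by omega
  obtain ⟨w, hw⟩ : ∃ w : ℕ, k = (w : ℤ) + 2 := ⟨(k - 2).toNat, by omega⟩
  have hwe : Even w := by
    refine ⟨(m - 1).toNat, ?_⟩
    omega
  subst hw
  exact finite_heckeAlgebra_of_empty N _ S (h w hwe)

end Fermat.Agent.S22ES
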